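import Fermat.Agent.S56.GW.EC.Sh.Cores

/-!
# [EC-SH] (SH2) the Hochschild–Serre isomorphism for a normal subgroup of invertible index

`V ⊴ G` containing a level, `X` a smooth `G`-module on which `[G : V]` is invertible
(`hm : ∀ x, (m * V.index) • x = x`).  Then the restriction
`lvH^i L X → lvH^i (L|V) X` is injective with image the classes fixed by all conjugations
`s56esh_conjV L V X g`, for `i = 1, 2`.
-/

set_option autoImplicit false
set_option linter.unusedSectionVars false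

namespace Fermat.Agent.S56

open Fermat.Agent.S55 groupCohomology

section General

variable {G : Type*} [Group G] {L : LevelSys G} {X : Type*} [AddCommGroup X] [DistribMulAction G X]

theorem s56esh_H1_of_nsmul (m : LvMor L X L X) (hf : m.f = MonoidHom.id G) (n : ℕ)
    (hφ : ∀ x, m.φ x = n • x) (z : lvH1 L X) : m.H1 z = n • z := by
  obtain ⟨c, rfl⟩ := lvH1mk_surjective z
  rw [LvMor.H1_mk, ← map_nsmul]
  congr 1
  apply Subtype.ext
  funext g
  rw [LvMor.Z1_coe, LvMor.pull1_apply, hf, hφ, AddSubgroup.coe_nsmul, Pi.smul_apply]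
  rfl

theorem s56esh_H2_of_nsmul (m : LvMor L X L X) (hf : m.f = MonoidHom.id G) (n : ℕ)
    (hφ : ∀ x, m.φ x = n • x) (z : lvH2 L X) : m.H2 z = n • z := by
  obtain ⟨c, rfl⟩ := lvH2mk_surjective z
  rw [LvMor.H2_mk, ← map_nsmul]
  congr 1
  apply Subtype.ext
  funext ⟨g, h⟩
  rw [LvMor.Z2_coe, LvMor.pull2_apply, hf, hφ, AddSubgroup.coe_nsmul, Pi.smul_apply]
  rfl

theorem s56esh_nsmul_H1 (k : ℕ) (hk : ∀ x : X, k • x = x) (z : lvH1 L X) : k • z = z := by
  obtain ⟨c, rfl⟩ := lvH1mk_surjective z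
  rw [← map_nsmul]
  congr 1
  apply Subtype.ext
  funext g
  rw [AddSubgroup.coe_nsmul, Pi.smul_apply, hk]

theorem s56esh_nsmul_H2 (k : ℕ) (hk : ∀ x : X, k • x = x) (z : lvH2 L X) : k • z = z := by
  obtain ⟨c, rfl⟩ := lvH2mk_surjective z
  rw [← map_nsmul]
  congr 1
  apply Subtype.ext
  funext p
  rw [AddSubgroup.coe_nsmul, Pi.smul_apply, hk]

end General

variable {G : Type*} [Group G] {L : LevelSys G} {V : Subgroup G}
  {X : Type*} [AddCommGroup X] [DistribMulAction G X]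

theorem s56esh_smooth_res (hX : L.IsSmooth X) : (s56esh_LU L V).IsSmooth X := by
  intro x
  obtain ⟨W, hW, h⟩ := hX x
  exact ⟨W.comap V.subtype, ⟨W, hW, rfl⟩, fun u hu => h (u : G) hu⟩

theorem s56esh_finiteIndex (hV : ∃ W ∈ L.levels, W ≤ V) : V.FiniteIndex := by
  obtain ⟨W, hW, hWV⟩ := hV
  have := L.finiteIndex W hW
  exact Subgroup.finiteIndex_of_le hWV

theorem s56esh_ext1_mem {N : Type*} [AddCommGroup N] [DistribMulAction V N]
    (s : s56esh_Sec V) {W : Subgroup G} [W.Normal] (hW : W ∈ L.levels)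
    (hWV : W ≤ V) {c : V → N} (hc : IsCocycle₁ c) (hinv : lvInv1 (W.subgroupOf V) c) :
    s56esh_ext1 (L := L) s hW hWV hinv ∈ lvZ1 L (s56esh_Coind L V N) := by
  constructor
  · intro g h
    apply s56esh_coind_ext
    intro y
    rw [AddSubgroup.coe_add, Pi.add_apply, s56esh_smul_apply, s56esh_ext1_apply,
      s56esh_ext1_apply, s56esh_ext1_apply]
    exact s56esh_hat1_cocycle s hc g h y
  · refine ⟨W, hW, fun g w hw => ?_⟩
    apply s56esh_coind_ext
    intro y
    rw [s56esh_ext1_apply, s56esh_ext1_apply]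
    exact s56esh_hat1_inv_g s hWV hinv g y hw

theorem s56esh_ext2_mem {N : Type*} [AddCommGroup N] [DistribMulAction V N]
    (s : s56esh_Sec V) {W : Subgroup G} [W.Normal] (hW : W ∈ L.levels)
    (hWV : W ≤ V) {c : V × V → N} (hc : IsCocycle₂ c) (hinv : lvInv2 (W.subgroupOf V) c) :
    s56esh_ext2 (L := L) s hW hWV hinv ∈ lvZ2 L (s56esh_Coind L V N) := by
  constructor
  · intro g h j
    apply s56esh_coind_ext
    intro y
    rw [AddSubgroup.coe_add, Pi.add_apply, AddSubgroup.coe_add, Pi.add_apply, s56esh_smul_apply,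
      s56esh_ext2_apply, s56esh_ext2_apply, s56esh_ext2_apply, s56esh_ext2_apply]
    exact s56esh_hat2_cocycle s hc g h j y
  · refine ⟨W, hW, fun g h w hw w' hw' => ?_⟩
    apply s56esh_coind_ext
    intro y
    rw [s56esh_ext2_apply, s56esh_ext2_apply]
    exact s56esh_hat2_inv_g s hWV hinv g h y hw hw'

/-! ### Injectivity of the restriction -/

theorem s56esh_res_H1_injective [V.Normal] (hV : ∃ W ∈ L.levels, W ≤ V) (hX : L.IsSmooth X)
    (m : ℕ) (hm : ∀ x : X, (m * V.index) • x = x) :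
    Function.Injective (s56esh_res L V X).H1 := by
  have := s56esh_finiteIndex hV
  let _ : Fintype (G ⧸ V) := Fintype.ofFinite _
  have hn : Fintype.card (G ⧸ V) = V.index := by
    rw [Subgroup.index_eq_card, Nat.card_eq_fintype_card]
  rw [injective_iff_map_eq_zero]
  intro z hz
  rw [← s56esh_mor_comp_iota hX, LvMor.H1_comp] at hz
  have h1 := s56esh_H1_injective (hz.trans (map_zero _).symm)
  have h2 : ((LvMor.ofCoeff L (s56esh_pi L V X) s56esh_pi_equivariant).comp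
      (LvMor.ofCoeff L (s56esh_iota L V X hX) (s56esh_iota_equivariant hX))).H1 z = 0 := by
    rw [LvMor.H1_comp, h1, map_zero]
  rw [s56esh_H1_of_nsmul _ rfl (Fintype.card (G ⧸ V)) (fun x => s56esh_pi_iota hX x), hn] at h2
  rw [← s56esh_nsmul_H1 _ hm z, mul_smul, h2, smul_zero]

theorem s56esh_res_H2_injective [V.Normal] (hV : ∃ W ∈ L.levels, W ≤ V) (hX : L.IsSmooth X)
    (m : ℕ) (hm : ∀ x : X, (m * V.index) • x = x) :
    Function.Injective (s56esh_res L V X).H2 := by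
  have := s56esh_finiteIndex hV
  let _ : Fintype (G ⧸ V) := Fintype.ofFinite _
  have hn : Fintype.card (G ⧸ V) = V.index := by
    rw [Subgroup.index_eq_card, Nat.card_eq_fintype_card]
  rw [injective_iff_map_eq_zero]
  intro z hz
  rw [← s56esh_mor_comp_iota hX, LvMor.H2_comp] at hz
  have h1 := s56esh_H2_injective hV (s56esh_smooth_res hX) (hz.trans (map_zero _).symm)
  have h2 : ((LvMor.ofCoeff L (s56esh_pi L V X) s56esh_pi_equivariant).comp
      (LvMor.ofCoeff L (s56esh_iota L V X hX) (s56esh_iota_equivariant hX))).H2 z = 0 := by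
    rw [LvMor.H2_comp, h1, map_zero]
  rw [s56esh_H2_of_nsmul _ rfl (Fintype.card (G ⧸ V)) (fun x => s56esh_pi_iota hX x), hn] at h2
  rw [← s56esh_nsmul_H2 _ hm z, mul_smul, h2, smul_zero]

/-! ### The image of the restriction -/

theorem s56esh_res_H1_range [V.Normal] (hV : ∃ W ∈ L.levels, W ≤ V) (hX : L.IsSmooth X)
    (m : ℕ) (hm : ∀ x : X, (m * V.index) • x = x) (y : lvH1 (s56esh_LU L V) X) :
    (∃ z, (s56esh_res L V X).H1 z = y) ↔ ∀ g : G, (s56esh_conjV L V X g).H1 y = y := by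
  constructor
  · rintro ⟨z, rfl⟩ g
    exact s56esh_conjV_res_H1 g z
  intro hy
  have := s56esh_finiteIndex hV
  let _ : Fintype (G ⧸ V) := Fintype.ofFinite _
  have hn : Fintype.card (G ⧸ V) = V.index := by
    rw [Subgroup.index_eq_card, Nat.card_eq_fintype_card]
  obtain ⟨c, rfl⟩ := lvH1mk_surjective y
  obtain ⟨s⟩ := s56esh_exists_sec V
  obtain ⟨W, hW, hWn, hWV, hinv⟩ := s56esh_exists_level1 hV (s56esh_smooth_res hX) c.2.2
  have := hWn
  set Ĉ : lvZ1 L (s56esh_Coind L V X) :=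
    ⟨s56esh_ext1 (L := L) s hW hWV hinv, s56esh_ext1_mem s hW hWV c.2.1 hinv⟩ with hĈ
  set πM := LvMor.ofCoeff L (s56esh_pi L V X) s56esh_pi_equivariant with hπM
  have key : (s56esh_res L V X).Z1 (πM.Z1 Ĉ) =
      ∑ q : G ⧸ V, (s56esh_conjV L V X (s.r q.out)⁻¹).Z1 c := by
    apply Subtype.ext
    funext v
    rw [AddSubmonoidClass.coe_finsetSum, Finset.sum_apply]
    show s56esh_pi L V X (s56esh_ext1 (L := L) s hW hWV hinv (v : G)) = _
    rw [s56esh_pi_apply]
    refine Finset.sum_congr rfl fun q _ => ?_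
    rw [s56esh_ext1_apply, s56esh_hat1_conj]
    rfl
  have h1 : (s56esh_res L V X).H1 (lvH1mk L X (πM.Z1 Ĉ)) =
      V.index • lvH1mk (s56esh_LU L V) X c := by
    rw [LvMor.H1_mk, key, map_sum]
    have : ∀ q : G ⧸ V, lvH1mk (s56esh_LU L V) X ((s56esh_conjV L V X (s.r q.out)⁻¹).Z1 c) =
        lvH1mk (s56esh_LU L V) X c := fun q => by
      rw [← LvMor.H1_mk, hy]
    rw [Finset.sum_congr rfl fun q _ => this q, Finset.sum_const, Finset.card_univ, hn]
  refine ⟨m • lvH1mk L X (πM.Z1 Ĉ), ?_⟩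
  rw [map_nsmul, h1, ← mul_smul]
  exact s56esh_nsmul_H1 _ hm _

theorem s56esh_res_H2_range [V.Normal] (hV : ∃ W ∈ L.levels, W ≤ V) (hX : L.IsSmooth X)
    (m : ℕ) (hm : ∀ x : X, (m * V.index) • x = x) (y : lvH2 (s56esh_LU L V) X) :
    (∃ z, (s56esh_res L V X).H2 z = y) ↔ ∀ g : G, (s56esh_conjV L V X g).H2 y = y := by
  constructor
  · rintro ⟨z, rfl⟩ g
    exact s56esh_conjV_res_H2 g z
  intro hy
  have := s56esh_finiteIndex hV
  let _ : Fintype (G ⧸ V) := Fintype.ofFinite _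
  have hn : Fintype.card (G ⧸ V) = V.index := by
    rw [Subgroup.index_eq_card, Nat.card_eq_fintype_card]
  obtain ⟨c, rfl⟩ := lvH2mk_surjective y
  obtain ⟨s⟩ := s56esh_exists_sec V
  obtain ⟨W, hW, hWn, hWV, hinv⟩ := s56esh_exists_level2 hV (s56esh_smooth_res hX) c.2.2
  have := hWn
  set Ĉ : lvZ2 L (s56esh_Coind L V X) :=
    ⟨s56esh_ext2 (L := L) s hW hWV hinv, s56esh_ext2_mem s hW hWV c.2.1 hinv⟩ with hĈ
  set πM := LvMor.ofCoeff L (s56esh_pi L V X) s56esh_pi_equivariant with hπM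
  have key : (s56esh_res L V X).Z2 (πM.Z2 Ĉ) =
      ∑ q : G ⧸ V, (s56esh_conjV L V X (s.r q.out)⁻¹).Z2 c := by
    apply Subtype.ext
    funext ⟨v, v'⟩
    rw [AddSubmonoidClass.coe_finsetSum, Finset.sum_apply]
    show s56esh_pi L V X (s56esh_ext2 (L := L) s hW hWV hinv ((v : G), (v' : G))) = _
    rw [s56esh_pi_apply]
    refine Finset.sum_congr rfl fun q _ => ?_
    rw [s56esh_ext2_apply, s56esh_hat2_conj]
    rfl
  have h1 : (s56esh_res L V X).H2 (lvH2mk L X (πM.Z2 Ĉ)) =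
      V.index • lvH2mk (s56esh_LU L V) X c := by
    rw [LvMor.H2_mk, key, map_sum]
    have : ∀ q : G ⧸ V, lvH2mk (s56esh_LU L V) X ((s56esh_conjV L V X (s.r q.out)⁻¹).Z2 c) =
        lvH2mk (s56esh_LU L V) X c := fun q => by
      rw [← LvMor.H2_mk, hy]
    rw [Finset.sum_congr rfl fun q _ => this q, Finset.sum_const, Finset.card_univ, hn]
  refine ⟨m • lvH2mk L X (πM.Z2 Ĉ), ?_⟩
  rw [map_nsmul, h1, ← mul_smul]
  exact s56esh_nsmul_H2 _ hm _

/-! ### The `p`-torsion, index prime to `p` form -/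

/-- If `p • x = 0` on `X` and `p ∤ n` then `n` is invertible on `X`. -/
theorem s56esh_exists_inv {X : Type*} [AddCommGroup X] {p : ℕ} (hp : p.Prime)
    (hpX : ∀ x : X, p • x = 0) {n : ℕ} (hn : ¬ p ∣ n) : ∃ m : ℕ, ∀ x : X, (m * n) • x = x := by
  have hcop : Nat.Coprime n p := ((Nat.Prime.coprime_iff_not_dvd hp).2 hn).symm
  obtain ⟨m, -, hm⟩ := Nat.exists_mul_mod_eq_one_of_coprime hcop hp.one_lt
  refine ⟨m, fun x => ?_⟩
  have h1 : m * n = p * (n * m / p) + 1 := by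
    have := Nat.div_add_mod (n * m) p
    rw [hm] at this
    rw [mul_comm m n]
    exact this.symm
  rw [h1, add_smul, mul_comm, mul_smul, hpX, one_smul, smul_zero, zero_add]

theorem s56esh_hs_H1 [V.Normal] (hV : ∃ W ∈ L.levels, W ≤ V) (hX : L.IsSmooth X)
    {p : ℕ} (hp : p.Prime) (hpX : ∀ x : X, p • x = 0) (hpV : ¬ p ∣ V.index) :
    Function.Injective (s56esh_res L V X).H1 ∧
      ∀ y : lvH1 (s56esh_LU L V) X,
        (∃ z, (s56esh_res L V X).H1 z = y) ↔ ∀ g : G, (s56esh_conjV L V X g).H1 y = y := by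
  obtain ⟨m, hm⟩ := s56esh_exists_inv hp hpX hpV
  exact ⟨s56esh_res_H1_injective hV hX m hm, s56esh_res_H1_range hV hX m hm⟩

theorem s56esh_hs_H2 [V.Normal] (hV : ∃ W ∈ L.levels, W ≤ V) (hX : L.IsSmooth X)
    {p : ℕ} (hp : p.Prime) (hpX : ∀ x : X, p • x = 0) (hpV : ¬ p ∣ V.index) :
    Function.Injective (s56esh_res L V X).H2 ∧
      ∀ y : lvH2 (s56esh_LU L V) X,
        (∃ z, (s56esh_res L V X).H2 z = y) ↔ ∀ g : G, (s56esh_conjV L V X g).H2 y = y := by
  obtain ⟨m, hm⟩ := s56esh_exists_inv hp hpX hpV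
  exact ⟨s56esh_res_H2_injective hV hX m hm, s56esh_res_H2_range hV hX m hm⟩

end Fermat.Agent.S56
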