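import Fermat.Agent.S56.GW.EC.Sh.Idem

/-!
# [EC-SH] the second action on the coinduced module and Shapiro-equivariance

For `V ⊴ G` and a `G`-module `X`, `Coind_V^G X = Fun(G/V, X)` carries a second action of `G`
(through `G/V`) commuting with the first: `(T_h φ) g = h • φ (h⁻¹ g)`.  Under Shapiro's
isomorphism the coefficient action of `T_h` on `lvH^i L (Coind)` corresponds to the conjugation
action `s56esh_conjV L V X h` on `lvH^i (L|V) X`.
-/

set_option autoImplicit false
set_option linter.unusedSectionVars false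

namespace Fermat.Agent.S56

open Fermat.Agent.S55 groupCohomology

variable {G : Type*} [Group G] (L : LevelSys G) (V : Subgroup G) [hV : V.Normal]
  (X : Type*) [AddCommGroup X] [DistribMulAction G X]

variable {L V X} in
theorem s56esh_T_mem (h : G) (φ : s56esh_Coind L V X) :
    (fun g => h • (φ : G → X) (h⁻¹ * g)) ∈ s56esh_coind L V X := by
  refine ⟨fun v g => ?_, ?_⟩
  · show h • (φ : G → X) (h⁻¹ * ((v : G) * g)) = (v : G) • (h • (φ : G → X) (h⁻¹ * g))
    have e : h⁻¹ * ((v : G) * g) = ((s56esh_cjV V h v : V) : G) * (h⁻¹ * g) := by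
      rw [s56esh_cjV_coe]
      group
    rw [e, s56esh_coind_equiv]
    show h • (((s56esh_cjV V h v : V) : G) • (φ : G → X) (h⁻¹ * g)) = _
    rw [s56esh_cjV_coe, smul_smul, smul_smul]
    congr 1
    group
  · obtain ⟨W, hW, hlc⟩ := s56esh_coind_lc φ
    refine ⟨W, hW, fun g w hw => ?_⟩
    show h • (φ : G → X) (h⁻¹ * (g * w)) = h • (φ : G → X) (h⁻¹ * g)
    rw [← mul_assoc, hlc _ w hw]

/-- The second action `(T_h φ) g = h • φ (h⁻¹ g)`. -/
def s56esh_T (h : G) : s56esh_Coind L V X →+ s56esh_Coind L V X where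
  toFun φ := ⟨fun g => h • (φ : G → X) (h⁻¹ * g), s56esh_T_mem h φ⟩
  map_zero' := s56esh_coind_ext fun _ => smul_zero h
  map_add' _ _ := s56esh_coind_ext fun _ => smul_add h _ _

variable {L V X}

theorem s56esh_T_apply (h : G) (φ : s56esh_Coind L V X) (g : G) :
    ((s56esh_T L V X h φ : s56esh_Coind L V X) : G → X) g = h • (φ : G → X) (h⁻¹ * g) := rfl

theorem s56esh_T_equivariant (h k : G) (φ : s56esh_Coind L V X) :
    s56esh_T L V X h (k • φ) = k • s56esh_T L V X h φ :=
  s56esh_coind_ext fun g => by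
    rw [s56esh_T_apply, s56esh_smul_apply, s56esh_smul_apply, s56esh_T_apply, mul_assoc]

theorem s56esh_T_one (φ : s56esh_Coind L V X) : s56esh_T L V X 1 φ = φ :=
  s56esh_coind_ext fun g => by rw [s56esh_T_apply, inv_one, one_mul, one_smul]

theorem s56esh_T_mul (h h' : G) (φ : s56esh_Coind L V X) :
    s56esh_T L V X (h * h') φ = s56esh_T L V X h (s56esh_T L V X h' φ) :=
  s56esh_coind_ext fun g => by
    rw [s56esh_T_apply, s56esh_T_apply, s56esh_T_apply, mul_smul, mul_inv_rev, mul_assoc]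

theorem s56esh_T_of_mem {v : G} (hv : v ∈ V) (φ : s56esh_Coind L V X) :
    s56esh_T L V X v φ = φ :=
  s56esh_coind_ext fun g => by
    rw [s56esh_T_apply]
    have e := s56esh_coind_equiv φ ⟨v⁻¹, V.inv_mem hv⟩ g
    rw [show ((⟨v⁻¹, V.inv_mem hv⟩ : V) : G) = v⁻¹ from rfl] at e
    rw [e]
    show v • (v⁻¹ • (φ : G → X) g) = _
    rw [smul_smul, mul_inv_cancel, one_smul]

variable (L V X)

/-- The coefficient morphism of `T_h`. -/
def s56esh_TM (h : G) : LvMor L (s56esh_Coind L V X) L (s56esh_Coind L V X) :=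
  LvMor.ofCoeff L (s56esh_T L V X h) (fun k φ => s56esh_T_equivariant h k φ)

variable {L V X}

theorem s56esh_mor_comp_TM (h : G) :
    (s56esh_mor L V X).comp (s56esh_TM L V X h) =
      (s56esh_conjV L V X h).comp
        ((s56esh_mor L V X).comp (s56esh_conjG L (s56esh_Coind L V X) h⁻¹)) := by
  apply s56esh_LvMor_ext
  · ext v
    show (v : G) = h⁻¹⁻¹ * (h⁻¹ * (v : G) * h) * h⁻¹
    group
  · ext φ
    show h • (φ : G → X) (h⁻¹ * 1) = h • (φ : G → X) (1 * h⁻¹)
    rw [mul_one, one_mul]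

/-- Shapiro's isomorphism is equivariant: coefficient action of `T_h` ↔ conjugation by `h`
(degree 1). -/
theorem s56esh_mor_T_H1 (h : G) (z : lvH1 L (s56esh_Coind L V X)) :
    (s56esh_mor L V X).H1 ((s56esh_TM L V X h).H1 z) =
      (s56esh_conjV L V X h).H1 ((s56esh_mor L V X).H1 z) := by
  rw [← LvMor.H1_comp, s56esh_mor_comp_TM, LvMor.H1_comp, LvMor.H1_comp, s56esh_conjG_H1]

/-- Shapiro's isomorphism is equivariant: coefficient action of `T_h` ↔ conjugation by `h`
(degree 2). -/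
theorem s56esh_mor_T_H2 (h : G) (z : lvH2 L (s56esh_Coind L V X)) :
    (s56esh_mor L V X).H2 ((s56esh_TM L V X h).H2 z) =
      (s56esh_conjV L V X h).H2 ((s56esh_mor L V X).H2 z) := by
  rw [← LvMor.H2_comp, s56esh_mor_comp_TM, LvMor.H2_comp, LvMor.H2_comp, s56esh_conjG_H2]

/-! ### The conjugation action on `lvH^i (L|V) X` is an action of `G / V` -/

theorem s56esh_conjV_one : s56esh_conjV L V X 1 = LvMor.id (s56esh_LU L V) X := by
  apply s56esh_LvMor_ext
  · ext v
    show (1 : G)⁻¹ * (v : G) * 1 = (v : G)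
    group
  · ext x
    exact one_smul G x

theorem s56esh_conjV_mul (g h : G) :
    s56esh_conjV L V X (g * h) = (s56esh_conjV L V X g).comp (s56esh_conjV L V X h) := by
  apply s56esh_LvMor_ext
  · ext v
    show (g * h)⁻¹ * (v : G) * (g * h) = h⁻¹ * (g⁻¹ * (v : G) * g) * h
    group
  · ext x
    exact mul_smul g h x

theorem s56esh_conjV_eq_conjG (v : V) :
    s56esh_conjV L V X (v : G) = s56esh_conjG (s56esh_LU L V) X v := by
  apply s56esh_LvMor_ext
  · ext w
    rfl
  · ext x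
    rfl

theorem s56esh_conjV_H1_one (y : lvH1 (s56esh_LU L V) X) : (s56esh_conjV L V X 1).H1 y = y := by
  rw [s56esh_conjV_one, LvMor.H1_id]

theorem s56esh_conjV_H2_one (y : lvH2 (s56esh_LU L V) X) : (s56esh_conjV L V X 1).H2 y = y := by
  rw [s56esh_conjV_one, LvMor.H2_id]

theorem s56esh_conjV_H1_mul (g h : G) (y : lvH1 (s56esh_LU L V) X) :
    (s56esh_conjV L V X (g * h)).H1 y =
      (s56esh_conjV L V X g).H1 ((s56esh_conjV L V X h).H1 y) := by
  rw [s56esh_conjV_mul, LvMor.H1_comp]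

theorem s56esh_conjV_H2_mul (g h : G) (y : lvH2 (s56esh_LU L V) X) :
    (s56esh_conjV L V X (g * h)).H2 y =
      (s56esh_conjV L V X g).H2 ((s56esh_conjV L V X h).H2 y) := by
  rw [s56esh_conjV_mul, LvMor.H2_comp]

theorem s56esh_conjV_H1_of_mem {v : G} (hv : v ∈ V) (y : lvH1 (s56esh_LU L V) X) :
    (s56esh_conjV L V X v).H1 y = y := by
  have := s56esh_conjV_eq_conjG (L := L) (X := X) (⟨v, hv⟩ : V)
  rw [show ((⟨v, hv⟩ : V) : G) = v from rfl] at this
  rw [this, s56esh_conjG_H1]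

theorem s56esh_conjV_H2_of_mem {v : G} (hv : v ∈ V) (y : lvH2 (s56esh_LU L V) X) :
    (s56esh_conjV L V X v).H2 y = y := by
  have := s56esh_conjV_eq_conjG (L := L) (X := X) (⟨v, hv⟩ : V)
  rw [show ((⟨v, hv⟩ : V) : G) = v from rfl] at this
  rw [this, s56esh_conjG_H2]

end Fermat.Agent.S56
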