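import Fermat.Agent.S56.GW.EC.Sh.HS

/-!
# [EC-SH] the idempotent remark

`Y` a `G`-module with a commuting action of a finite group `B` whose order is invertible on `Y`.
Then `lvH^i L (Y^B) → lvH^i L Y` is injective with image the classes fixed by the coefficient
action of `B`, `i = 0, 1, 2`.
-/

set_option autoImplicit false
set_option linter.unusedSectionVars false

namespace Fermat.Agent.S56

open Fermat.Agent.S55 groupCohomology

variable {G : Type*} [Group G] (L : LevelSys G) (B : Type*) [Group B]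
  (Y : Type*) [AddCommGroup Y] [DistribMulAction G Y] [DistribMulAction B Y] [SMulCommClass G B Y]

/-- The `B`-fixed points. -/
def s56esh_fixB : AddSubgroup Y where
  carrier := {y | ∀ b : B, b • y = y}
  zero_mem' := fun b => smul_zero b
  add_mem' := fun hx hy b => by rw [smul_add, hx b, hy b]
  neg_mem' := fun hx b => by rw [smul_neg, hx b]

variable {B Y}

theorem s56esh_mem_fixB {y : Y} : y ∈ s56esh_fixB B Y ↔ ∀ b : B, b • y = y := Iff.rfl

instance s56esh_fixB_action : DistribMulAction G (s56esh_fixB B Y) where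
  smul g y := ⟨g • (y : Y), fun b => by rw [← smul_comm g b, y.2 b]⟩
  one_smul y := Subtype.ext (one_smul G (y : Y))
  mul_smul g h y := Subtype.ext (mul_smul g h (y : Y))
  smul_zero g := Subtype.ext (smul_zero g)
  smul_add g x y := Subtype.ext (smul_add g (x : Y) (y : Y))

theorem s56esh_fixB_coe_smul (g : G) (y : s56esh_fixB B Y) :
    ((g • y : s56esh_fixB B Y) : Y) = g • (y : Y) := rfl

variable {L}

theorem s56esh_fixB_smooth (hY : L.IsSmooth Y) : L.IsSmooth (s56esh_fixB B Y) := by
  intro y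
  obtain ⟨W, hW, h⟩ := hY (y : Y)
  exact ⟨W, hW, fun w hw => Subtype.ext (h w hw)⟩

variable (L B Y)

/-- The inclusion of the fixed points, as a morphism of level cohomology. -/
def s56esh_incB : LvMor L (s56esh_fixB B Y) L Y :=
  LvMor.ofCoeff L (s56esh_fixB B Y).subtype (fun _ _ => rfl)

variable {B}

/-- The coefficient action of `b : B`, as a morphism of level cohomology. -/
def s56esh_coefB (b : B) : LvMor L Y L Y :=
  LvMor.ofCoeff L (DistribSMul.toAddMonoidHom Y b) (fun g y => (smul_comm g b y).symm)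

variable {L Y}

theorem s56esh_coefB_comp_incB (b : B) :
    (s56esh_coefB L Y b).comp (s56esh_incB L B Y) = s56esh_incB L B Y := by
  apply s56esh_LvMor_ext
  · rfl
  · ext y
    exact y.2 b

section Avg

variable [Fintype B] (m : ℕ)

theorem s56esh_avg_mem (y : Y) : m • ∑ b : B, b • y ∈ s56esh_fixB B Y := by
  intro b'
  rw [smul_comm b' m, Finset.smul_sum]
  congr 1
  rw [← Equiv.sum_comp (Equiv.mulLeft b') (fun b : B => b • y)]
  refine Finset.sum_congr rfl fun b _ => ?_
  rw [Equiv.coe_mulLeft, mul_smul]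

variable (B Y)

/-- The averaging projector `Y → Y^B`, `y ↦ m • ∑ b, b • y`. -/
def s56esh_avg : Y →+ s56esh_fixB B Y where
  toFun y := ⟨m • ∑ b : B, b • y, s56esh_avg_mem m y⟩
  map_zero' := Subtype.ext (by simp)
  map_add' x y := Subtype.ext (by
    simp only [smul_add, Finset.sum_add_distrib, AddSubgroup.coe_add])

variable {B Y}

theorem s56esh_avg_coe (y : Y) : ((s56esh_avg B Y m y : s56esh_fixB B Y) : Y) = m • ∑ b : B, b • y :=
  rfl

theorem s56esh_avg_equivariant (g : G) (y : Y) :
    s56esh_avg B Y m (g • y) = g • s56esh_avg B Y m y := by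
  apply Subtype.ext
  have h1 : ∑ b : B, b • g • y = ∑ b : B, g • b • y :=
    Finset.sum_congr rfl fun b _ => (smul_comm g b y).symm
  rw [s56esh_fixB_coe_smul, s56esh_avg_coe, s56esh_avg_coe, h1, ← Finset.smul_sum,
    smul_comm g m]

theorem s56esh_avg_fix (hm : ∀ y : Y, (m * Fintype.card B) • y = y) (y : s56esh_fixB B Y) :
    s56esh_avg B Y m (y : Y) = y := by
  apply Subtype.ext
  have h1 : ∑ b : B, b • (y : Y) = ∑ _b : B, (y : Y) := Finset.sum_congr rfl fun b _ => y.2 b
  rw [s56esh_avg_coe, h1, Finset.sum_const, Finset.card_univ, ← mul_smul, hm]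

end Avg

/-! ### Degree 0 -/

theorem s56esh_incB_H0_injective : Function.Injective (s56esh_incB L B Y).H0 := by
  intro x y h
  apply Subtype.ext
  apply Subtype.ext
  have h' : (((s56esh_incB L B Y).H0 x : lvH0 (G := G) Y) : Y) =
      (((s56esh_incB L B Y).H0 y : lvH0 (G := G) Y) : Y) := congrArg Subtype.val h
  exact h'

theorem s56esh_incB_H0_range (y : lvH0 (G := G) Y) :
    (∃ z, (s56esh_incB L B Y).H0 z = y) ↔ ∀ b : B, (s56esh_coefB L Y b).H0 y = y := by
  constructor
  · rintro ⟨z, rfl⟩ b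
    apply Subtype.ext
    exact (z : s56esh_fixB B Y).2 b
  · intro hy
    have hy' : ∀ b : B, b • (y : Y) = y := fun b => congrArg Subtype.val (hy b)
    refine ⟨⟨⟨(y : Y), hy'⟩, fun g => Subtype.ext (y.2 g)⟩, ?_⟩
    apply Subtype.ext
    rfl

/-! ### Degrees 1 and 2 -/

section Deg

variable [Finite B] (hY : L.IsSmooth Y) (m : ℕ) (hm : ∀ y : Y, (m * Nat.card B) • y = y)
include hm

theorem s56esh_incB_H1_injective : Function.Injective (s56esh_incB L B Y).H1 := by
  let _ : Fintype B := Fintype.ofFinite B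
  have hm' : ∀ y : Y, (m * Fintype.card B) • y = y := by
    intro y
    rw [← Nat.card_eq_fintype_card]
    exact hm y
  have hid : (LvMor.ofCoeff L (s56esh_avg B Y m) (s56esh_avg_equivariant m)).comp
      (s56esh_incB L B Y) = LvMor.id L (s56esh_fixB B Y) := by
    apply s56esh_LvMor_ext
    · rfl
    · ext y
      exact congrArg Subtype.val (s56esh_avg_fix m hm' y)
  intro x y h
  have := congrArg (LvMor.ofCoeff L (s56esh_avg B Y m) (s56esh_avg_equivariant m)).H1 h
  rwa [← LvMor.H1_comp, ← LvMor.H1_comp, hid, LvMor.H1_id, LvMor.H1_id] at this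

theorem s56esh_incB_H2_injective : Function.Injective (s56esh_incB L B Y).H2 := by
  let _ : Fintype B := Fintype.ofFinite B
  have hm' : ∀ y : Y, (m * Fintype.card B) • y = y := by
    intro y
    rw [← Nat.card_eq_fintype_card]
    exact hm y
  have hid : (LvMor.ofCoeff L (s56esh_avg B Y m) (s56esh_avg_equivariant m)).comp
      (s56esh_incB L B Y) = LvMor.id L (s56esh_fixB B Y) := by
    apply s56esh_LvMor_ext
    · rfl
    · ext y
      exact congrArg Subtype.val (s56esh_avg_fix m hm' y)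
  intro x y h
  have := congrArg (LvMor.ofCoeff L (s56esh_avg B Y m) (s56esh_avg_equivariant m)).H2 h
  rwa [← LvMor.H2_comp, ← LvMor.H2_comp, hid, LvMor.H2_id, LvMor.H2_id] at this

theorem s56esh_incB_H1_range (y : lvH1 L Y) :
    (∃ z, (s56esh_incB L B Y).H1 z = y) ↔ ∀ b : B, (s56esh_coefB L Y b).H1 y = y := by
  constructor
  · rintro ⟨z, rfl⟩ b
    rw [← LvMor.H1_comp, s56esh_coefB_comp_incB]
  intro hy
  let _ : Fintype B := Fintype.ofFinite B
  have hcard : Fintype.card B = Nat.card B := Nat.card_eq_fintype_card.symm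
  refine ⟨(LvMor.ofCoeff L (s56esh_avg B Y m) (s56esh_avg_equivariant m)).H1 y, ?_⟩
  obtain ⟨c, rfl⟩ := lvH1mk_surjective y
  have key : (s56esh_incB L B Y).Z1
      ((LvMor.ofCoeff L (s56esh_avg B Y m) (s56esh_avg_equivariant m)).Z1 c) =
      m • ∑ b : B, (s56esh_coefB L Y b).Z1 c := by
    apply Subtype.ext
    funext g
    rw [AddSubgroup.coe_nsmul, Pi.smul_apply, AddSubmonoidClass.coe_finsetSum, Finset.sum_apply]
    rfl
  rw [LvMor.H1_mk, LvMor.H1_mk, key, map_nsmul, map_sum]
  have : ∀ b : B, lvH1mk L Y ((s56esh_coefB L Y b).Z1 c) = lvH1mk L Y c := fun b => by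
    rw [← LvMor.H1_mk, hy]
  rw [Finset.sum_congr rfl fun b _ => this b, Finset.sum_const, Finset.card_univ, hcard,
    ← mul_smul]
  exact s56esh_nsmul_H1 _ hm _

theorem s56esh_incB_H2_range (y : lvH2 L Y) :
    (∃ z, (s56esh_incB L B Y).H2 z = y) ↔ ∀ b : B, (s56esh_coefB L Y b).H2 y = y := by
  constructor
  · rintro ⟨z, rfl⟩ b
    rw [← LvMor.H2_comp, s56esh_coefB_comp_incB]
  intro hy
  let _ : Fintype B := Fintype.ofFinite B
  have hcard : Fintype.card B = Nat.card B := Nat.card_eq_fintype_card.symm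
  refine ⟨(LvMor.ofCoeff L (s56esh_avg B Y m) (s56esh_avg_equivariant m)).H2 y, ?_⟩
  obtain ⟨c, rfl⟩ := lvH2mk_surjective y
  have key : (s56esh_incB L B Y).Z2
      ((LvMor.ofCoeff L (s56esh_avg B Y m) (s56esh_avg_equivariant m)).Z2 c) =
      m • ∑ b : B, (s56esh_coefB L Y b).Z2 c := by
    apply Subtype.ext
    funext p
    rw [AddSubgroup.coe_nsmul, Pi.smul_apply, AddSubmonoidClass.coe_finsetSum, Finset.sum_apply]
    rfl
  rw [LvMor.H2_mk, LvMor.H2_mk, key, map_nsmul, map_sum]
  have : ∀ b : B, lvH2mk L Y ((s56esh_coefB L Y b).Z2 c) = lvH2mk L Y c := fun b => by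
    rw [← LvMor.H2_mk, hy]
  rw [Finset.sum_congr rfl fun b _ => this b, Finset.sum_const, Finset.card_univ, hcard,
    ← mul_smul]
  exact s56esh_nsmul_H2 _ hm _

end Deg

end Fermat.Agent.S56
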