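import Fermat.Agent.S56.GW.EC.Base.HomB
import Fermat.Agent.S56.GW.EC.Base.Act
import Fermat.Agent.S56.GW.EC.Sh.Idem

/-!
# [EC-BASE] (Idem): `# lvH^i L (Hom_B(X, T)) = # Hom_B(X, lvH^i L T)`

`B` a finite group of order prime to `p`, `X` a finite `B`-module killed by `p`, `T` a
`G`-`B`-bimodule killed by `p`.  `θ (y) (x) = (ev_x)_* y` is a bijection
`lvH^i L (s56eb_HomB B X T) → (X →+[B] lvH^i L T)`, `i = 0, 1, 2`; the inverse is
`F ↦ ∑_j (Q_j)_* (F e_j)` for a `ZMod p`-basis `(e_j)` of `X` with coordinates `κ_j`,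
`Q_j t = (x ↦ u • ∑_β (κ_j (β⁻¹ x)).val • (β • t))`, `u · #B ≡ 1 (mod p)`.
-/

set_option autoImplicit false
set_option linter.unusedSectionVars false
set_option linter.style.haveILetI false

namespace Fermat.Agent.S56

open Fermat.Agent.S55 groupCohomology

/-! ### Scalars `ZMod p` through `ZMod.val` -/

section Val

variable {p : ℕ} [Fact p.Prime] {Y : Type*} [AddCommGroup Y]

theorem s56esh_mod_nsmul {y : Y} (hy : p • y = 0) (m : ℕ) : (m % p) • y = m • y := by
  conv_rhs => rw [← Nat.div_add_mod m p]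
  rw [add_smul, mul_comm, mul_smul, hy, smul_zero, zero_add]

theorem s56esh_val_add_nsmul {y : Y} (hy : p • y = 0) (a a' : ZMod p) :
    (a + a').val • y = a.val • y + a'.val • y := by
  rw [ZMod.val_add, s56esh_mod_nsmul hy, add_smul]

theorem s56esh_val_zero_nsmul (y : Y) : (0 : ZMod p).val • y = 0 := by
  rw [ZMod.val_zero, zero_smul]

end Val

/-! ### A basis of a finite elementary abelian `p`-group -/

theorem s56esh_exists_basis_aux {p : ℕ} [Fact p.Prime] (X : Type*) [AddCommGroup X]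
    [Module (ZMod p) X] [Finite X] :
    ∃ (d : ℕ) (e : Fin d → X) (κ : Fin d → X →+ ZMod p),
      ∀ x : X, x = ∑ j, (κ j x).val • e j := by
  have : Module.Finite (ZMod p) X := Module.Finite.of_finite
  let b := Module.finBasis (ZMod p) X
  refine ⟨_, b, fun j => (b.coord j).toAddMonoidHom, fun x => ?_⟩
  conv_lhs => rw [← b.sum_repr x]
  refine Finset.sum_congr rfl fun j _ => ?_
  show b.repr x j • b j = (b.repr x j).val • b j
  conv_lhs => rw [← ZMod.natCast_zmod_val (b.repr x j)]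
  rw [Nat.cast_smul_eq_nsmul]

theorem s56esh_exists_basis {p : ℕ} [Fact p.Prime] (X : Type*) [AddCommGroup X] [Finite X]
    (hX : ∀ x : X, p • x = 0) :
    ∃ (d : ℕ) (e : Fin d → X) (κ : Fin d → X →+ ZMod p),
      ∀ x : X, x = ∑ j, (κ j x).val • e j :=
  @s56esh_exists_basis_aux p _ X _ (AddCommGroup.zmodModule hX) _

/-! ### The maps `Q_κ : T → Hom_B(X, T)` -/

section Q

variable {p : ℕ} [Fact p.Prime] {B : Type*} [Group B] [Fintype B]
  {X : Type*} [AddCommGroup X] [DistribMulAction B X]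
  {T : Type*} [AddCommGroup T] [DistribMulAction B T]
  (hT : ∀ t : T, p • t = 0) (u : ℕ) (κ : X →+ ZMod p)

/-- `Q_κ t = (x ↦ u • ∑_β (κ (β⁻¹ x)).val • (β • t))`. -/
def s56esh_Qfun (t : T) : s56eb_HomB B X T :=
  s56eb_HomB.mk'
    { toFun := fun x => u • ∑ β : B, (κ (β⁻¹ • x)).val • (β • t)
      map_zero' := by
        simp only [smul_zero, map_zero, ZMod.val_zero, zero_smul, Finset.sum_const_zero]
      map_add' := fun x x' => by
        rw [← smul_add, ← Finset.sum_add_distrib]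
        congr 1
        refine Finset.sum_congr rfl fun β _ => ?_
        rw [smul_add, map_add, s56esh_val_add_nsmul (hT _)] }
    (fun b x => by
      show u • ∑ β : B, (κ (β⁻¹ • b • x)).val • (β • t) =
        b • (u • ∑ β : B, (κ (β⁻¹ • x)).val • (β • t))
      rw [smul_comm b u]
      congr 1
      rw [Finset.smul_sum, ← Equiv.sum_comp (Equiv.mulLeft b)
        (fun β : B => (κ (β⁻¹ • b • x)).val • (β • t))]
      refine Finset.sum_congr rfl fun β _ => ?_
      rw [Equiv.coe_mulLeft, smul_comm b ((κ (β⁻¹ • x)).val), ← mul_smul, ← mul_smul]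
      congr 3
      group)

theorem s56esh_Qfun_apply (t : T) (x : X) :
    s56esh_Qfun (B := B) hT u κ t x = u • ∑ β : B, (κ (β⁻¹ • x)).val • (β • t) := rfl

/-- `Q_κ` as an additive map. -/
def s56esh_Q : T →+ s56eb_HomB B X T where
  toFun := s56esh_Qfun hT u κ
  map_zero' := by
    apply s56eb_HomB.ext
    intro x
    rw [s56esh_Qfun_apply]
    simp only [smul_zero, Finset.sum_const_zero, s56eb_HomB.zero_apply]
  map_add' := fun t t' => by
    apply s56eb_HomB.ext
    intro x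
    rw [s56eb_HomB.add_apply, s56esh_Qfun_apply, s56esh_Qfun_apply, s56esh_Qfun_apply,
      ← smul_add, ← Finset.sum_add_distrib]
    congr 1
    refine Finset.sum_congr rfl fun β _ => ?_
    rw [smul_add, smul_add]

theorem s56esh_Q_apply (t : T) (x : X) :
    s56esh_Q (B := B) hT u κ t x = u • ∑ β : B, (κ (β⁻¹ • x)).val • (β • t) := rfl

theorem s56esh_Q_equivariant {G : Type*} [Monoid G] [DistribMulAction G T] [SMulCommClass G B T]
    (g : G) (t : T) : s56esh_Q (B := B) (X := X) hT u κ (g • t) = g • s56esh_Q hT u κ t := by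
  apply s56eb_HomB.ext
  intro x
  rw [s56eb_HomB.smul_apply, s56esh_Q_apply, s56esh_Q_apply, smul_comm g u]
  congr 1
  rw [Finset.smul_sum]
  refine Finset.sum_congr rfl fun β _ => ?_
  rw [smul_comm g ((κ (β⁻¹ • x)).val), smul_comm g β]

end Q

/-! ### The expansion identity -/

section Expand

variable {p : ℕ} [Fact p.Prime] {B : Type*} [Group B] [Fintype B]
  {X : Type*} [AddCommGroup X] [DistribMulAction B X]
  {d : ℕ} (e : Fin d → X) (κ : Fin d → X →+ ZMod p)
  (hid : ∀ x : X, x = ∑ j, (κ j x).val • e j) (u : ℕ)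
  (hu : ∀ x : X, (u * Fintype.card B) • x = x)
include hid hu

theorem s56esh_expand {Y : Type*} [AddCommGroup Y] [DistribMulAction B Y] (F : X →+ Y)
    (hF : ∀ (b : B) (x : X), F (b • x) = b • F x) (x : X) :
    ∑ j, u • ∑ β : B, (κ j (β⁻¹ • x)).val • (β • F (e j)) = F x := by
  have h1 : ∀ β : B, F x = ∑ j, (κ j (β⁻¹ • x)).val • (β • F (e j)) := by
    intro β
    have hx : x = β • β⁻¹ • x := by rw [smul_inv_smul]
    conv_lhs => rw [hx, hF, hid (β⁻¹ • x), map_sum, Finset.smul_sum]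
    refine Finset.sum_congr rfl fun j _ => ?_
    rw [map_nsmul, smul_comm β]
  rw [← Finset.smul_sum, Finset.sum_comm]
  have h2 : ∑ β : B, ∑ j, (κ j (β⁻¹ • x)).val • (β • F (e j)) = ∑ _β : B, F x :=
    Finset.sum_congr rfl fun β _ => (h1 β).symm
  rw [h2, Finset.sum_const, Finset.card_univ, ← mul_smul, ← map_nsmul, hu]

end Expand

/-! ### The equivariant homomorphisms `ev_x`, `Q_κ`, `b • ·` -/

section Homs

variable {G : Type*} [Group G] {p : ℕ} [Fact p.Prime] {B : Type*} [Group B] [Fintype B]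
  {X : Type*} [AddCommGroup X] [DistribMulAction B X]
  {T : Type*} [AddCommGroup T] [DistribMulAction G T] [DistribMulAction B T] [SMulCommClass G B T]

/-- Evaluation at `x`, a `G`-equivariant map `Hom_B(X, T) → T`. -/
def s56esh_evHom (x : X) : s56eb_HomB B X T →+[G] T where
  toFun Φ := Φ x
  map_smul' _ _ := rfl
  map_zero' := rfl
  map_add' _ _ := rfl

theorem s56esh_evHom_apply (x : X) (Φ : s56eb_HomB B X T) :
    s56esh_evHom (G := G) x Φ = Φ x := rfl

/-- `Q_κ` as a `G`-equivariant map `T → Hom_B(X, T)`. -/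
def s56esh_QHom (hT : ∀ t : T, p • t = 0) (u : ℕ) (κ : X →+ ZMod p) :
    T →+[G] s56eb_HomB B X T where
  toFun := s56esh_Q hT u κ
  map_smul' g t := s56esh_Q_equivariant hT u κ g t
  map_zero' := map_zero _
  map_add' := map_add _

theorem s56esh_QHom_apply (hT : ∀ t : T, p • t = 0) (u : ℕ) (κ : X →+ ZMod p) (t : T) (x : X) :
    s56esh_QHom (G := G) (B := B) hT u κ t x = u • ∑ β : B, (κ (β⁻¹ • x)).val • (β • t) := rfl

/-- `t ↦ b • t` as a `G`-equivariant map. -/
def s56esh_coefHom (b : B) : T →+[G] T where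
  toFun t := b • t
  map_smul' g t := (smul_comm g b t).symm
  map_zero' := smul_zero b
  map_add' := smul_add b

theorem s56esh_coefHom_apply (b : B) (t : T) : s56esh_coefHom (G := G) b t = b • t := rfl

theorem s56esh_HomB_sum_apply {ι : Type*} (s : Finset ι) (Φ : ι → s56eb_HomB B X T) (x : X) :
    (∑ k ∈ s, Φ k) x = ∑ k ∈ s, Φ k x := by
  classical
  induction s using Finset.induction_on with
  | empty => simp
  | insert a s ha ih =>
    rw [Finset.sum_insert ha, Finset.sum_insert ha, s56eb_HomB.add_apply, ih]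

end Homs

/-! ### Push-forward along equivariant maps, degrees `0, 1, 2` -/

section Push

variable {G : Type*} [Group G] (L : LevelSys G)
  {T : Type*} [AddCommGroup T] [DistribMulAction G T]
  {T' : Type*} [AddCommGroup T'] [DistribMulAction G T']
  {T'' : Type*} [AddCommGroup T''] [DistribMulAction G T'']

/-- The coefficient morphism of an equivariant map. -/
def s56esh_pmor (φ : T →+[G] T') : LvMor L T L T' :=
  LvMor.ofCoeff L φ.toAddMonoidHom (fun g t => map_smul φ g t)

/-- Push-forward on invariants. -/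
def s56esh_push0 (φ : T →+[G] T') : lvH0 (G := G) T →+ lvH0 (G := G) T' := (s56esh_pmor L φ).H0

/-- Push-forward on `H¹`. -/
def s56esh_push1 (φ : T →+[G] T') : lvH1 L T →+ lvH1 L T' := (s56esh_pmor L φ).H1

/-- Push-forward on `H²`. -/
def s56esh_push2 (φ : T →+[G] T') : lvH2 L T →+ lvH2 L T' := (s56esh_pmor L φ).H2

theorem s56esh_push0_sum {ι : Type*} (s : Finset ι) (n : ι → ℕ) (φ : T →+[G] T')
    (φk : ι → T →+[G] T') (h : ∀ t, φ t = ∑ k ∈ s, n k • φk k t) (y : lvH0 (G := G) T) :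
    s56esh_push0 L φ y = ∑ k ∈ s, n k • s56esh_push0 L (φk k) y := by
  apply Subtype.ext
  rw [AddSubgroup.val_finsetSum]
  exact h _

theorem s56esh_push1_sum {ι : Type*} (s : Finset ι) (n : ι → ℕ) (φ : T →+[G] T')
    (φk : ι → T →+[G] T') (h : ∀ t, φ t = ∑ k ∈ s, n k • φk k t) (y : lvH1 L T) :
    s56esh_push1 L φ y = ∑ k ∈ s, n k • s56esh_push1 L (φk k) y := by
  obtain ⟨c, rfl⟩ := lvH1mk_surjective y
  show lvH1mk L T' ((s56esh_pmor L φ).Z1 c) =
    ∑ k ∈ s, n k • lvH1mk L T' ((s56esh_pmor L (φk k)).Z1 c)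
  simp only [← map_nsmul, ← map_sum]
  congr 1
  apply Subtype.ext
  funext g
  rw [AddSubgroup.val_finsetSum, Finset.sum_apply]
  refine (h _).trans (Finset.sum_congr rfl fun k _ => ?_)
  exact (map_nsmul (φk k) (n k) _).symm

theorem s56esh_push2_sum {ι : Type*} (s : Finset ι) (n : ι → ℕ) (φ : T →+[G] T')
    (φk : ι → T →+[G] T') (h : ∀ t, φ t = ∑ k ∈ s, n k • φk k t) (y : lvH2 L T) :
    s56esh_push2 L φ y = ∑ k ∈ s, n k • s56esh_push2 L (φk k) y := by
  obtain ⟨c, rfl⟩ := lvH2mk_surjective y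
  show lvH2mk L T' ((s56esh_pmor L φ).Z2 c) =
    ∑ k ∈ s, n k • lvH2mk L T' ((s56esh_pmor L (φk k)).Z2 c)
  simp only [← map_nsmul, ← map_sum]
  congr 1
  apply Subtype.ext
  funext q
  rw [AddSubgroup.val_finsetSum, Finset.sum_apply]
  refine (h _).trans (Finset.sum_congr rfl fun k _ => ?_)
  exact (map_nsmul (φk k) (n k) _).symm

theorem s56esh_push0_comp (ψ : T' →+[G] T'') (φ : T →+[G] T') (y : lvH0 (G := G) T) :
    s56esh_push0 L ψ (s56esh_push0 L φ y) = s56esh_push0 L (ψ.comp φ) y := rfl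

theorem s56esh_push1_comp (ψ : T' →+[G] T'') (φ : T →+[G] T') (y : lvH1 L T) :
    s56esh_push1 L ψ (s56esh_push1 L φ y) = s56esh_push1 L (ψ.comp φ) y := by
  obtain ⟨c, rfl⟩ := lvH1mk_surjective y
  rfl

theorem s56esh_push2_comp (ψ : T' →+[G] T'') (φ : T →+[G] T') (y : lvH2 L T) :
    s56esh_push2 L ψ (s56esh_push2 L φ y) = s56esh_push2 L (ψ.comp φ) y := by
  obtain ⟨c, rfl⟩ := lvH2mk_surjective y
  rfl

theorem s56esh_push0_id (y : lvH0 (G := G) T) :
    s56esh_push0 L (DistribMulActionHom.id G) y = y := rfl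

theorem s56esh_push1_id (y : lvH1 L T) : s56esh_push1 L (DistribMulActionHom.id G) y = y := by
  obtain ⟨c, rfl⟩ := lvH1mk_surjective y
  rfl

theorem s56esh_push2_id (y : lvH2 L T) : s56esh_push2 L (DistribMulActionHom.id G) y = y := by
  obtain ⟨c, rfl⟩ := lvH2mk_surjective y
  rfl

end Push

/-! ### The formal bijection -/

section Abstract

variable {G : Type*} [Group G] {p : ℕ} [Fact p.Prime] {B : Type*} [Group B] [Fintype B]
  {X : Type*} [AddCommGroup X] [DistribMulAction B X]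
  {T : Type*} [AddCommGroup T] [DistribMulAction G T] [DistribMulAction B T] [SMulCommClass G B T]
  (hT : ∀ t : T, p • t = 0)
  {d : ℕ} (e : Fin d → X) (κ : Fin d → X →+ ZMod p)
  (hid : ∀ x : X, x = ∑ j, (κ j x).val • e j) (u : ℕ)
  (hu : ∀ x : X, (u * Fintype.card B) • x = x)
  {HA HT : Type*} [AddCommGroup HA] [AddCommGroup HT] [DistribMulAction B HT]
  (PAT : (s56eb_HomB B X T →+[G] T) → HA →+ HT)
  (PTA : (T →+[G] s56eb_HomB B X T) → HT →+ HA)
  (PAA : (s56eb_HomB B X T →+[G] s56eb_HomB B X T) → HA →+ HA)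
  (PTT : (T →+[G] T) → HT →+ HT)
  (sumAT : ∀ (n : Bool → ℕ) (φ : s56eb_HomB B X T →+[G] T)
    (φk : Bool → s56eb_HomB B X T →+[G] T),
    (∀ a, φ a = ∑ k, n k • φk k a) → ∀ y, PAT φ y = ∑ k, n k • PAT (φk k) y)
  (sumTT : ∀ (n : B → ℕ) (φ : T →+[G] T) (φk : B → T →+[G] T),
    (∀ t, φ t = ∑ k, n k • φk k t) → ∀ z, PTT φ z = ∑ k, n k • PTT (φk k) z)
  (sumAA : ∀ (n : Fin d → ℕ) (φ : s56eb_HomB B X T →+[G] s56eb_HomB B X T)
    (φk : Fin d → s56eb_HomB B X T →+[G] s56eb_HomB B X T),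
    (∀ a, φ a = ∑ k, n k • φk k a) → ∀ y, PAA φ y = ∑ k, n k • PAA (φk k) y)
  (compATA : ∀ (ψ : T →+[G] s56eb_HomB B X T) (φ : s56eb_HomB B X T →+[G] T) (y : HA),
    PTA ψ (PAT φ y) = PAA (ψ.comp φ) y)
  (compTAT : ∀ (ψ : s56eb_HomB B X T →+[G] T) (φ : T →+[G] s56eb_HomB B X T) (z : HT),
    PAT ψ (PTA φ z) = PTT (ψ.comp φ) z)
  (compTTA : ∀ (ψ : T →+[G] T) (φ : s56eb_HomB B X T →+[G] T) (y : HA),
    PTT ψ (PAT φ y) = PAT (ψ.comp φ) y)
  (idAA : ∀ y : HA, PAA (DistribMulActionHom.id G) y = y)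
  (hsmul : ∀ (b : B) (z : HT), b • z = PTT (s56esh_coefHom b) z)
include hT hid hu sumAT sumTT sumAA compATA compTAT compTTA idAA hsmul

theorem s56esh_homB_bij_aux : ∃ θ : HA → (X →+[B] HT), Function.Bijective θ := by
  classical
  have addAT : ∀ (φ φ₁ φ₂ : s56eb_HomB B X T →+[G] T), (∀ a, φ a = φ₁ a + φ₂ a) →
      ∀ y, PAT φ y = PAT φ₁ y + PAT φ₂ y := by
    intro φ φ₁ φ₂ h y
    have h1 := sumAT (fun _ => 1) φ (fun k => bif k then φ₁ else φ₂)
      (fun a => by
        rw [Fintype.sum_bool, one_smul, one_smul, add_comm]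
        exact (h a).trans (add_comm _ _)) y
    rw [Fintype.sum_bool, one_smul, one_smul] at h1
    exact h1
  let E : X → HA →+ HT := fun x => PAT (s56esh_evHom (B := B) x)
  let Qm : Fin d → HT →+ HA := fun j => PTA (s56esh_QHom hT u (κ j))
  have hE_add : ∀ x x' y, E (x + x') y = E x y + E x' y := fun x x' y =>
    addAT _ _ _ (fun a => map_add a x x') y
  have hE_smul : ∀ (b : B) x y, E (b • x) y = b • E x y := by
    intro b x y
    show PAT (s56esh_evHom (B := B) (b • x)) y = b • PAT (s56esh_evHom (B := B) x) y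
    rw [hsmul, compTTA]
    have h1 : s56esh_evHom (G := G) (B := B) (T := T) (b • x) =
        (s56esh_coefHom b).comp (s56esh_evHom (B := B) x) := by
      ext a
      exact s56eb_HomB.map_smul a b x
    rw [h1]
  have hQE : ∀ y, ∑ j, Qm j (E (e j) y) = y := by
    intro y
    show ∑ j, PTA (s56esh_QHom hT u (κ j)) (PAT (s56esh_evHom (B := B) (e j)) y) = y
    simp only [compATA]
    have h1 := sumAA (fun _ => 1) (DistribMulActionHom.id G)
      (fun j => (s56esh_QHom hT u (κ j)).comp (s56esh_evHom (B := B) (e j))) (fun a => by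
        apply s56eb_HomB.ext
        intro x
        simp only [one_smul]
        rw [s56esh_HomB_sum_apply]
        exact (s56esh_expand e κ hid u hu (a : X →+ T) (fun b x => a.map_smul b x) x).symm) y
    simp only [one_smul] at h1
    rw [← h1, idAA]
  have hEQ : ∀ x j z, E x (Qm j z) = u • ∑ β : B, (κ j (β⁻¹ • x)).val • (β • z) := by
    intro x j z
    show PAT (s56esh_evHom (B := B) x) (PTA (s56esh_QHom hT u (κ j)) z) = _
    rw [compTAT]
    have h1 := sumTT (fun β => u * (κ j (β⁻¹ • x)).val)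
      ((s56esh_evHom (B := B) x).comp (s56esh_QHom hT u (κ j))) (fun β => s56esh_coefHom β) (fun t => by
        show s56esh_Q hT u (κ j) t x = _
        rw [s56esh_Q_apply, Finset.smul_sum]
        refine Finset.sum_congr rfl fun β _ => ?_
        rw [mul_smul]
        rfl) z
    rw [h1, Finset.smul_sum]
    refine Finset.sum_congr rfl fun β _ => ?_
    rw [mul_smul, hsmul]
  have hE_zero : ∀ y, E 0 y = 0 := by
    intro y
    have h1 := hE_add 0 0 y
    rw [add_zero] at h1
    exact left_eq_add.mp h1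
  refine ⟨fun y =>
    { toFun := fun x => E x y
      map_smul' := fun b x => hE_smul b x y
      map_zero' := hE_zero y
      map_add' := fun x x' => hE_add x x' y }, ?_, ?_⟩
  · intro y y' h
    have h' : ∀ x, E x y = E x y' := fun x => DFunLike.congr_fun h x
    rw [← hQE y, ← hQE y']
    simp only [h']
  · intro F
    refine ⟨∑ j, Qm j (F (e j)), ?_⟩
    ext x
    show E x (∑ j, Qm j (F (e j))) = F x
    rw [map_sum]
    simp only [hEQ]
    exact s56esh_expand e κ hid u hu F.toAddMonoidHom (fun b x => map_smul F b x) x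

end Abstract

/-! ### The three degrees -/

section Final

attribute [local instance] s56eb_actH0 s56eb_actH1 s56eb_actH2

variable {G : Type*} [Group G] (L : LevelSys G) {B : Type*} [Group B] [Finite B]
  {p : ℕ} [Fact p.Prime] (hpB : ¬ p ∣ Nat.card B)
  (X : Type*) [AddCommGroup X] [DistribMulAction B X] [Finite X] (hX : ∀ x : X, p • x = 0)
  (T : Type*) [AddCommGroup T] [DistribMulAction G T] [DistribMulAction B T] [SMulCommClass G B T]
  (hT : ∀ t : T, p • t = 0)
include L hpB hX hT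

/-- Degree `0`: `y ↦ (x ↦ (ev_x)_* y)` is a bijection
`H^0(L, Hom_B(X, T)) → Hom_B(X, H^0(L, T))`. -/
theorem s56esh_homB_H0_bij :
    ∃ θ : lvH0 (G := G) (s56eb_HomB B X T) → (X →+[B] lvH0 (G := G) T), Function.Bijective θ := by
  let _ : Fintype B := Fintype.ofFinite B
  obtain ⟨d, e, κ, hid⟩ := s56esh_exists_basis (p := p) X hX
  obtain ⟨u, hu⟩ := s56esh_exists_inv (Fact.out : p.Prime) hX
    (n := Fintype.card B) (by rwa [Nat.card_eq_fintype_card] at hpB)
  exact s56esh_homB_bij_aux hT e κ hid u hu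
    (s56esh_push0 L) (s56esh_push0 L) (s56esh_push0 L) (s56esh_push0 L)
    (fun n φ φk h y => s56esh_push0_sum L Finset.univ n φ φk h y)
    (fun n φ φk h y => s56esh_push0_sum L Finset.univ n φ φk h y)
    (fun n φ φk h y => s56esh_push0_sum L Finset.univ n φ φk h y)
    (fun ψ φ y => s56esh_push0_comp L ψ φ y)
    (fun ψ φ y => s56esh_push0_comp L ψ φ y)
    (fun ψ φ y => s56esh_push0_comp L ψ φ y)
    (fun y => s56esh_push0_id L y)
    (fun _ _ => rfl)

/-- **(Idem), degree `0`.** -/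
theorem s56esh_card_homB_H0 :
    Nat.card (lvH0 (G := G) (s56eb_HomB B X T)) = Nat.card (X →+[B] lvH0 (G := G) T) := by
  obtain ⟨θ, hθ⟩ := s56esh_homB_H0_bij L hpB X hX T hT
  exact Nat.card_congr (Equiv.ofBijective θ hθ)

/-- Degree `1`: `y ↦ (x ↦ (ev_x)_* y)` is a bijection
`H^1(L, Hom_B(X, T)) → Hom_B(X, H^1(L, T))`. -/
theorem s56esh_homB_H1_bij :
    ∃ θ : lvH1 L (s56eb_HomB B X T) → (X →+[B] lvH1 L T), Function.Bijective θ := by
  let _ : Fintype B := Fintype.ofFinite B
  obtain ⟨d, e, κ, hid⟩ := s56esh_exists_basis (p := p) X hX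
  obtain ⟨u, hu⟩ := s56esh_exists_inv (Fact.out : p.Prime) hX
    (n := Fintype.card B) (by rwa [Nat.card_eq_fintype_card] at hpB)
  exact s56esh_homB_bij_aux hT e κ hid u hu
    (s56esh_push1 L) (s56esh_push1 L) (s56esh_push1 L) (s56esh_push1 L)
    (fun n φ φk h y => s56esh_push1_sum L Finset.univ n φ φk h y)
    (fun n φ φk h y => s56esh_push1_sum L Finset.univ n φ φk h y)
    (fun n φ φk h y => s56esh_push1_sum L Finset.univ n φ φk h y)
    (fun ψ φ y => s56esh_push1_comp L ψ φ y)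
    (fun ψ φ y => s56esh_push1_comp L ψ φ y)
    (fun ψ φ y => s56esh_push1_comp L ψ φ y)
    (fun y => s56esh_push1_id L y)
    (fun _ _ => rfl)

/-- **(Idem), degree `1`.** -/
theorem s56esh_card_homB_H1 :
    Nat.card (lvH1 L (s56eb_HomB B X T)) = Nat.card (X →+[B] lvH1 L T) := by
  obtain ⟨θ, hθ⟩ := s56esh_homB_H1_bij L hpB X hX T hT
  exact Nat.card_congr (Equiv.ofBijective θ hθ)

/-- Degree `2`: `y ↦ (x ↦ (ev_x)_* y)` is a bijection
`H^2(L, Hom_B(X, T)) → Hom_B(X, H^2(L, T))`. -/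
theorem s56esh_homB_H2_bij :
    ∃ θ : lvH2 L (s56eb_HomB B X T) → (X →+[B] lvH2 L T), Function.Bijective θ := by
  let _ : Fintype B := Fintype.ofFinite B
  obtain ⟨d, e, κ, hid⟩ := s56esh_exists_basis (p := p) X hX
  obtain ⟨u, hu⟩ := s56esh_exists_inv (Fact.out : p.Prime) hX
    (n := Fintype.card B) (by rwa [Nat.card_eq_fintype_card] at hpB)
  exact s56esh_homB_bij_aux hT e κ hid u hu
    (s56esh_push2 L) (s56esh_push2 L) (s56esh_push2 L) (s56esh_push2 L)
    (fun n φ φk h y => s56esh_push2_sum L Finset.univ n φ φk h y)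
    (fun n φ φk h y => s56esh_push2_sum L Finset.univ n φ φk h y)
    (fun n φ φk h y => s56esh_push2_sum L Finset.univ n φ φk h y)
    (fun ψ φ y => s56esh_push2_comp L ψ φ y)
    (fun ψ φ y => s56esh_push2_comp L ψ φ y)
    (fun ψ φ y => s56esh_push2_comp L ψ φ y)
    (fun y => s56esh_push2_id L y)
    (fun _ _ => rfl)

/-- **(Idem), degree `2`.** -/
theorem s56esh_card_homB_H2 :
    Nat.card (lvH2 L (s56eb_HomB B X T)) = Nat.card (X →+[B] lvH2 L T) := by
  obtain ⟨θ, hθ⟩ := s56esh_homB_H2_bij L hpB X hX T hT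
  exact Nat.card_congr (Equiv.ofBijective θ hθ)

end Final

end Fermat.Agent.S56
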