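import Fermat.Agent.S56.GW.EC.Base.Seams
import Fermat.Agent.S56.GW.EC.Sh.HomB

/-!
# [EC-BASE] seam (IDEM): `s56esh_idem_main : s56eb_Idem_stmt`

The instance of `s56esh_card_homB_H0/H1/H2` (Sh/HomB.lean) at `T = s56eb_T p π χ`,
`L = tl_levelsS S`.
-/

set_option autoImplicit false

open ExtCitation

namespace Fermat.Agent.S56

open Fermat.Agent.S55

local notation "GQ" => (AlgebraicClosure ℚ ≃ₐ[ℚ] AlgebraicClosure ℚ)

attribute [local instance] s56eb_actH0 s56eb_actH1 s56eb_actH2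

/-- **Seam (IDEM)** of [EC-BASE]. -/
theorem s56esh_idem_main : s56eb_Idem_stmt := by
  intro p _ _ S _ Δ _ _ π χ _ B hpB X _ _ _ hX
  exact ⟨s56esh_card_homB_H0 (tl_levelsS S) hpB X hX (s56eb_T p π χ)
      (fun t => s56eb_T.nsmul_eq_zero t),
    s56esh_card_homB_H1 (tl_levelsS S) hpB X hX (s56eb_T p π χ)
      (fun t => s56eb_T.nsmul_eq_zero t),
    s56esh_card_homB_H2 (tl_levelsS S) hpB X hX (s56eb_T p π χ)
      (fun t => s56eb_T.nsmul_eq_zero t)⟩

end Fermat.Agent.S56
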