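import Fermat.Agent.S56.GW.EC.Sh.Trace

/-!
# [EC-SH] transitivity bridge and the relative form of (SH2)

For `W ≤ U ≤ G` and a `G`-module `X`:
* `s56esh_resUW L hWU X : LvMor (L|U) X (L|W) X` : restriction from `U` to `W`;
* `s56esh_subMor L hWU X : LvMor (L|W) X ((L|U)|(W.subgroupOf U)) X` along
  `W.subgroupOf U ≃* W`, bijective on `lvH^i`, compatible with restriction and conjugation;
* `s56esh_resUW_H1/H2_injective`, `s56esh_resUW_H1/H2_range` : (SH2) for `W ⊴ G`, `W ≤ U`: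
  `lvH^i (L|U) X ≅ (lvH^i (L|W) X)^{U}`.
-/

set_option autoImplicit false
set_option linter.unusedSectionVars false

namespace Fermat.Agent.S56

open Fermat.Agent.S55 groupCohomology

variable {G : Type*} [Group G] (L : LevelSys G) {W U : Subgroup G} (hWU : W ≤ U)
  (X : Type*) [AddCommGroup X] [DistribMulAction G X]

/-- Restriction from `U` to `W ≤ U`. -/
def s56esh_resUW : LvMor (s56esh_LU L U) X (s56esh_LU L W) X where
  f := Subgroup.inclusion hWU
  φ := AddMonoidHom.id X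
  equivariant := fun _ _ => rfl
  levels := by
    rintro _ ⟨W₀, hW₀, rfl⟩
    exact ⟨W₀.comap W.subtype, ⟨W₀, hW₀, rfl⟩, fun w hw => hw⟩

/-- The comparison morphism along `W.subgroupOf U ≃* W`. -/
def s56esh_subMor :
    LvMor (s56esh_LU L W) X (s56esh_LU (s56esh_LU L U) (W.subgroupOf U)) X where
  f := (Subgroup.subgroupOfEquivOfLe hWU).toMonoidHom
  φ := AddMonoidHom.id X
  equivariant := fun _ _ => rfl
  levels := by
    rintro _ ⟨W₀, hW₀, rfl⟩
    exact ⟨(W₀.comap U.subtype).comap (W.subgroupOf U).subtype,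
      ⟨W₀.comap U.subtype, ⟨W₀, hW₀, rfl⟩, rfl⟩, fun w hw => hw⟩

/-- The inverse comparison morphism. -/
def s56esh_subMor' :
    LvMor (s56esh_LU (s56esh_LU L U) (W.subgroupOf U)) X (s56esh_LU L W) X where
  f := (Subgroup.subgroupOfEquivOfLe hWU).symm.toMonoidHom
  φ := AddMonoidHom.id X
  equivariant := fun _ _ => rfl
  levels := by
    rintro _ ⟨_, ⟨W₀, hW₀, rfl⟩, rfl⟩
    exact ⟨W₀.comap W.subtype, ⟨W₀, hW₀, rfl⟩, fun w hw => hw⟩

variable {L X}

theorem s56esh_subMor'_comp :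
    (s56esh_subMor' L hWU X).comp (s56esh_subMor L hWU X) = LvMor.id (s56esh_LU L W) X := by
  apply s56esh_LvMor_ext
  · ext w
    rfl
  · rfl

theorem s56esh_subMor_comp' :
    (s56esh_subMor L hWU X).comp (s56esh_subMor' L hWU X) =
      LvMor.id (s56esh_LU (s56esh_LU L U) (W.subgroupOf U)) X := by
  apply s56esh_LvMor_ext
  · ext w
    rfl
  · rfl

theorem s56esh_subMor_H1_bijective : Function.Bijective (s56esh_subMor L hWU X).H1 := by
  refine Function.bijective_iff_has_inverse.2 ⟨(s56esh_subMor' L hWU X).H1, fun y => ?_, fun y => ?_⟩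
  · rw [← LvMor.H1_comp, s56esh_subMor'_comp, LvMor.H1_id]
  · rw [← LvMor.H1_comp, s56esh_subMor_comp', LvMor.H1_id]

theorem s56esh_subMor_H2_bijective : Function.Bijective (s56esh_subMor L hWU X).H2 := by
  refine Function.bijective_iff_has_inverse.2 ⟨(s56esh_subMor' L hWU X).H2, fun y => ?_, fun y => ?_⟩
  · rw [← LvMor.H2_comp, s56esh_subMor'_comp, LvMor.H2_id]
  · rw [← LvMor.H2_comp, s56esh_subMor_comp', LvMor.H2_id]

theorem s56esh_subMor_comp_resUW :
    (s56esh_subMor L hWU X).comp (s56esh_resUW L hWU X) =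
      s56esh_res (s56esh_LU L U) (W.subgroupOf U) X := by
  apply s56esh_LvMor_ext
  · ext w
    rfl
  · rfl

theorem s56esh_subMor_comp_conjV [W.Normal] (u : U) :
    (s56esh_subMor L hWU X).comp (s56esh_conjV L W X (u : G)) =
      (s56esh_conjV (s56esh_LU L U) (W.subgroupOf U) X u).comp (s56esh_subMor L hWU X) := by
  apply s56esh_LvMor_ext
  · ext w
    rfl
  · rfl

/-! ### (SH2) in relative form -/

section Relative

variable [W.Normal] (hW : ∃ W₀ ∈ L.levels, W₀ ≤ W) (hX : L.IsSmooth X) (m : ℕ)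
  (hm : ∀ x : X, (m * W.relIndex U) • x = x)
include hW hX hm

theorem s56esh_sub_hV : ∃ W' ∈ (s56esh_LU L U).levels, W' ≤ W.subgroupOf U := by
  obtain ⟨W₀, hW₀, hW₀W⟩ := hW
  exact ⟨W₀.comap U.subtype, ⟨W₀, hW₀, rfl⟩, fun u hu => hW₀W hu⟩

theorem s56esh_resUW_H1_injective : Function.Injective (s56esh_resUW L hWU X).H1 := by
  have h := s56esh_res_H1_injective (L := s56esh_LU L U) (V := W.subgroupOf U) (X := X)
    (s56esh_sub_hV hW hX m hm) (s56esh_smooth_res hX) m hm
  rw [← s56esh_subMor_comp_resUW hWU] at h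
  intro a b hab
  apply h
  rw [LvMor.H1_comp, LvMor.H1_comp, hab]

theorem s56esh_resUW_H2_injective : Function.Injective (s56esh_resUW L hWU X).H2 := by
  have h := s56esh_res_H2_injective (L := s56esh_LU L U) (V := W.subgroupOf U) (X := X)
    (s56esh_sub_hV hW hX m hm) (s56esh_smooth_res hX) m hm
  rw [← s56esh_subMor_comp_resUW hWU] at h
  intro a b hab
  apply h
  rw [LvMor.H2_comp, LvMor.H2_comp, hab]

theorem s56esh_resUW_H1_range (y : lvH1 (s56esh_LU L W) X) :
    (∃ z, (s56esh_resUW L hWU X).H1 z = y) ↔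
      ∀ u : U, (s56esh_conjV L W X (u : G)).H1 y = y := by
  have h := s56esh_res_H1_range (L := s56esh_LU L U) (V := W.subgroupOf U) (X := X)
    (s56esh_sub_hV hW hX m hm) (s56esh_smooth_res hX) m hm ((s56esh_subMor L hWU X).H1 y)
  have hinj := (s56esh_subMor_H1_bijective (L := L) (X := X) hWU).1
  constructor
  · rintro ⟨z, rfl⟩ u
    apply hinj
    rw [← LvMor.H1_comp, s56esh_subMor_comp_conjV, LvMor.H1_comp]
    refine h.1 ⟨z, ?_⟩ u
    rw [← s56esh_subMor_comp_resUW hWU, LvMor.H1_comp]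
  · intro hy
    obtain ⟨z, hz⟩ := h.2 (fun u => by
      rw [← LvMor.H1_comp, ← s56esh_subMor_comp_conjV, LvMor.H1_comp, hy u])
    refine ⟨z, hinj ?_⟩
    rw [← LvMor.H1_comp, s56esh_subMor_comp_resUW]
    exact hz

theorem s56esh_resUW_H2_range (y : lvH2 (s56esh_LU L W) X) :
    (∃ z, (s56esh_resUW L hWU X).H2 z = y) ↔
      ∀ u : U, (s56esh_conjV L W X (u : G)).H2 y = y := by
  have h := s56esh_res_H2_range (L := s56esh_LU L U) (V := W.subgroupOf U) (X := X)
    (s56esh_sub_hV hW hX m hm) (s56esh_smooth_res hX) m hm ((s56esh_subMor L hWU X).H2 y)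
  have hinj := (s56esh_subMor_H2_bijective (L := L) (X := X) hWU).1
  constructor
  · rintro ⟨z, rfl⟩ u
    apply hinj
    rw [← LvMor.H2_comp, s56esh_subMor_comp_conjV, LvMor.H2_comp]
    refine h.1 ⟨z, ?_⟩ u
    rw [← s56esh_subMor_comp_resUW hWU, LvMor.H2_comp]
  · intro hy
    obtain ⟨z, hz⟩ := h.2 (fun u => by
      rw [← LvMor.H2_comp, ← s56esh_subMor_comp_conjV, LvMor.H2_comp, hy u])
    refine ⟨z, hinj ?_⟩
    rw [← LvMor.H2_comp, s56esh_subMor_comp_resUW]
    exact hz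

end Relative

end Fermat.Agent.S56
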