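import Fermat.Agent.S56.GW.EC.Sh.Inv

/-!
# [EC-SH] the prism homotopy in degree two

`F g h y` stands for `(C (g, h)) y`, `C` a `Coind`-valued 2-cocycle of `G`.  In homogeneous form
`Φ (x₀, x₁, x₂) = F (x₀⁻¹ x₁) (x₁⁻¹ x₂) x₀`, and the prism operator
`B₀ g y = Φ (y, υ y, υ (y g)) - Φ (y, y g, υ (y g))` satisfies
`F g h y = ĉ₂ (g, h) y - (d¹ B₀) (g, h) y`, `c₂ (u, v) = F u v 1`.
-/

set_option autoImplicit false
set_option linter.unusedSectionVars false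

namespace Fermat.Agent.S56

open Fermat.Agent.S55 groupCohomology

variable {G : Type*} [Group G] {U : Subgroup G} (s : s56esh_Sec U)
  {N : Type*} [AddCommGroup N] [DistribMulAction U N] (F : G → G → G → N)

/-- The homogeneous form of `F`. -/
def s56esh_Phi (x₀ x₁ x₂ : G) : N := F (x₀⁻¹ * x₁) (x₁⁻¹ * x₂) x₀

/-- The prism operator. -/
def s56esh_B0 (g y : G) : N :=
  s56esh_Phi F y (s.υ y : G) (s.υ (y * g) : G) - s56esh_Phi F y (y * g) (s.υ (y * g) : G)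

/-- The restriction of `F` to `U`, evaluated at `1`. -/
def s56esh_c2 (p : U × U) : N := F (p.1 : G) (p.2 : G) 1

variable {F}

section Equiv

variable (hE : ∀ (u : U) (g h y : G), F g h ((u : G) * y) = u • F g h y)
include hE

theorem s56esh_Phi_equiv (u : U) (x₀ x₁ x₂ : G) :
    s56esh_Phi F ((u : G) * x₀) ((u : G) * x₁) ((u : G) * x₂) = u • s56esh_Phi F x₀ x₁ x₂ := by
  unfold s56esh_Phi
  rw [hE]
  congr 2 <;> group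

theorem s56esh_B0_equiv (g : G) (u : U) (y : G) :
    s56esh_B0 s F g ((u : G) * y) = u • s56esh_B0 s F g y := by
  unfold s56esh_B0
  rw [mul_assoc, s.υ_mul, s.υ_mul, Subgroup.coe_mul, Subgroup.coe_mul, s56esh_Phi_equiv hE,
    s56esh_Phi_equiv hE, smul_sub]

theorem s56esh_hat2_c2 (g h y : G) :
    s56esh_hat2 s (s56esh_c2 F) (g, h) y =
      s56esh_Phi F (s.υ y : G) (s.υ (y * g) : G) (s.υ (y * g * h) : G) := by
  unfold s56esh_hat2 s56esh_c2 s56esh_Phi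
  simp only
  rw [← hE, mul_one]
  simp only [Subgroup.coe_mul, Subgroup.coe_inv]

end Equiv

section Cocycle

variable (hZ : ∀ g h j y : G, F (g * h) j y + F g h y = F h j (y * g) + F g (h * j) y)
include hZ

theorem s56esh_Phi_coc (x₀ x₁ x₂ x₃ : G) :
    s56esh_Phi F x₀ x₂ x₃ + s56esh_Phi F x₀ x₁ x₂ =
      s56esh_Phi F x₁ x₂ x₃ + s56esh_Phi F x₀ x₁ x₃ := by
  unfold s56esh_Phi
  have := hZ (x₀⁻¹ * x₁) (x₁⁻¹ * x₂) (x₂⁻¹ * x₃) x₀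
  have e1 : x₀⁻¹ * x₁ * (x₁⁻¹ * x₂) = x₀⁻¹ * x₂ := by group
  have e2 : x₁⁻¹ * x₂ * (x₂⁻¹ * x₃) = x₁⁻¹ * x₃ := by group
  have e3 : x₀ * (x₀⁻¹ * x₁) = x₁ := by group
  rw [e1, e2, e3] at this
  exact this

omit hZ in
theorem s56esh_prism_aux {A : Type*} [AddCommGroup A]
    (p012 pa012 p0a1a2 p0a0a1 p0a0a2 p1a1a2 p01a1 p01a2 p02a2 p12a2 : A)
    (h1 : p0a1a2 + p0a0a1 = pa012 + p0a0a2) (h2 : p0a1a2 + p01a1 = p1a1a2 + p01a2)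
    (h3 : p02a2 + p012 = p12a2 + p01a2) :
    p012 = pa012 - ((p1a1a2 - p12a2) - (p0a0a2 - p02a2) + (p0a0a1 - p01a1)) := by
  have e1 : pa012 = p0a1a2 + p0a0a1 - p0a0a2 := eq_sub_of_add_eq h1.symm
  have e2 : p1a1a2 = p0a1a2 + p01a1 - p01a2 := eq_sub_of_add_eq h2.symm
  have e3 : p012 = p12a2 + p01a2 - p02a2 := by
    rw [eq_sub_iff_add_eq, add_comm]
    exact h3
  rw [e1, e2, e3]
  abel

/-- The homotopy identity. -/
theorem s56esh_prism (g h y : G) :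
    F g h y = s56esh_Phi F (s.υ y : G) (s.υ (y * g) : G) (s.υ (y * g * h) : G) -
      (s56esh_B0 s F h (y * g) - s56esh_B0 s F (g * h) y + s56esh_B0 s F g y) := by
  have h0 : F g h y = s56esh_Phi F y (y * g) (y * g * h) := by
    unfold s56esh_Phi
    congr 1 <;> group
  have h1 := s56esh_Phi_coc hZ y (s.υ y : G) (s.υ (y * g) : G) (s.υ (y * g * h) : G)
  have h2 := s56esh_Phi_coc hZ y (y * g) (s.υ (y * g) : G) (s.υ (y * g * h) : G)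
  have h3 := s56esh_Phi_coc hZ y (y * g) (y * g * h) (s.υ (y * g * h) : G)
  rw [h0]
  unfold s56esh_B0
  rw [← mul_assoc y g h]
  exact s56esh_prism_aux _ _ _ _ _ _ _ _ _ _ h1 h2 h3

end Cocycle

section Inv

variable {W : Subgroup G} [hW : W.Normal]
  (hI : ∀ g h y : G, ∀ w ∈ W, ∀ w' ∈ W, ∀ w'' ∈ W, F (g * w) (h * w') (y * w'') = F g h y)
include hI

theorem s56esh_Phi_inv (x₀ x₁ x₂ : G) {w₀ w₁ w₂ : G} (h₀ : w₀ ∈ W) (h₁ : w₁ ∈ W) (h₂ : w₂ ∈ W) :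
    s56esh_Phi F (x₀ * w₀) (x₁ * w₁) (x₂ * w₂) = s56esh_Phi F x₀ x₁ x₂ := by
  unfold s56esh_Phi
  have hs : (x₀⁻¹ * x₁)⁻¹ * w₀⁻¹ * (x₀⁻¹ * x₁) * w₁ ∈ W := by
    refine W.mul_mem ?_ h₁
    have := hW.conj_mem w₀⁻¹ (W.inv_mem h₀) (x₀⁻¹ * x₁)⁻¹
    simpa using this
  have hs' : (x₁⁻¹ * x₂)⁻¹ * w₁⁻¹ * (x₁⁻¹ * x₂) * w₂ ∈ W := by
    refine W.mul_mem ?_ h₂
    have := hW.conj_mem w₁⁻¹ (W.inv_mem h₁) (x₁⁻¹ * x₂)⁻¹
    simpa using this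
  have e : (x₀ * w₀)⁻¹ * (x₁ * w₁) =
      (x₀⁻¹ * x₁) * ((x₀⁻¹ * x₁)⁻¹ * w₀⁻¹ * (x₀⁻¹ * x₁) * w₁) := by group
  have e' : (x₁ * w₁)⁻¹ * (x₂ * w₂) =
      (x₁⁻¹ * x₂) * ((x₁⁻¹ * x₂)⁻¹ * w₁⁻¹ * (x₁⁻¹ * x₂) * w₂) := by group
  rw [e, e', hI _ _ _ _ hs _ hs' _ h₀]

variable (hWU : W ≤ U)
include hWU

theorem s56esh_B0_inv_y (g y : G) {w : G} (hw : w ∈ W) :
    s56esh_B0 s F g (y * w) = s56esh_B0 s F g y := by
  obtain ⟨w₁, hw₁, e₁⟩ := s.υ_mul_W hWU y hw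
  have hw' : g⁻¹ * w * g ∈ W := by
    have := hW.conj_mem w hw g⁻¹
    simpa using this
  obtain ⟨w₂, hw₂, e₂⟩ := s.υ_mul_W hWU (y * g) hw'
  have e₃ : y * w * g = y * g * (g⁻¹ * w * g) := by group
  unfold s56esh_B0
  rw [e₃, e₁, e₂, Subgroup.coe_mul, Subgroup.coe_mul, s56esh_Phi_inv hI _ _ _ hw hw₁ hw₂,
    s56esh_Phi_inv hI _ _ _ hw hw' hw₂]

theorem s56esh_B0_inv_g (g y : G) {w : G} (hw : w ∈ W) :
    s56esh_B0 s F (g * w) y = s56esh_B0 s F g y := by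
  obtain ⟨w₂, hw₂, e₂⟩ := s.υ_mul_W hWU (y * g) hw
  unfold s56esh_B0
  rw [← mul_assoc, e₂, Subgroup.coe_mul]
  have a1 := s56esh_Phi_inv hI y (s.υ y : G) (s.υ (y * g) : G) W.one_mem W.one_mem hw₂
  have a2 := s56esh_Phi_inv hI y (y * g) (s.υ (y * g) : G) W.one_mem hw hw₂
  rw [mul_one, mul_one] at a1
  rw [mul_one] at a2
  rw [a1, a2]

end Inv

end Fermat.Agent.S56
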