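import Fermat.Agent.S56.GW.EC.Sh.H1
import Fermat.Agent.S56.GW.EC.Sh.Htpy

/-!
# [EC-SH] Shapiro's lemma in degree two for the level cohomology

`s56esh_H2_bijective : Function.Bijective (s56esh_mor L U N).H2`, i.e.
`lvH2 L (Coind_U^G N) ≃ lvH2 (L|U) N` by restriction to `U` and evaluation at `1`,
for `U` containing a level and `N` smooth.
-/

set_option autoImplicit false

namespace Fermat.Agent.S56

open Fermat.Agent.S55 groupCohomology

variable {G : Type*} [Group G] {L : LevelSys G} {U : Subgroup G}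
  {N : Type*} [AddCommGroup N] [DistribMulAction U N]

/-- The `Coind`-valued extension of a level-constant 2-cochain of `U`. -/
def s56esh_ext2 (s : s56esh_Sec U) {W : Subgroup G} [W.Normal] (hW : W ∈ L.levels) (hWU : W ≤ U)
    {c : U × U → N} (hc : lvInv2 (W.subgroupOf U) c) (p : G × G) : s56esh_Coind L U N :=
  ⟨fun y => s56esh_hat2 s c p y,
    ⟨fun u y => s56esh_hat2_equiv s c p u y,
      ⟨W, hW, fun y _ hw => s56esh_hat2_inv_y s hWU hc p y hw⟩⟩⟩

theorem s56esh_ext2_apply (s : s56esh_Sec U) {W : Subgroup G} [W.Normal] (hW : W ∈ L.levels)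
    (hWU : W ≤ U) {c : U × U → N} (hc : lvInv2 (W.subgroupOf U) c) (p : G × G) (y : G) :
    ((s56esh_ext2 s hW hWU hc p : s56esh_Coind L U N) : G → N) y = s56esh_hat2 s c p y := rfl

theorem s56esh_H2_surjective (hU : ∃ V ∈ L.levels, V ≤ U) (hN : (s56esh_LU L U).IsSmooth N) :
    Function.Surjective (s56esh_mor L U N).H2 := by
  intro x
  obtain ⟨c, rfl⟩ := lvH2mk_surjective x
  obtain ⟨s⟩ := s56esh_exists_sec U
  obtain ⟨W, hW, hWn, hWU, hinv⟩ := s56esh_exists_level2 hU hN c.2.2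
  have := hWn
  have hcoc : IsCocycle₂ (s56esh_ext2 (L := L) s hW hWU hinv) := by
    intro g h j
    apply s56esh_coind_ext
    intro y
    rw [AddSubgroup.coe_add, Pi.add_apply, AddSubgroup.coe_add, Pi.add_apply, s56esh_smul_apply,
      s56esh_ext2_apply, s56esh_ext2_apply, s56esh_ext2_apply, s56esh_ext2_apply]
    exact s56esh_hat2_cocycle s c.2.1 g h j y
  have hlc : L.IsLC2 (s56esh_ext2 (L := L) s hW hWU hinv) := by
    refine ⟨W, hW, fun g h w hw w' hw' => ?_⟩
    apply s56esh_coind_ext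
    intro y
    rw [s56esh_ext2_apply, s56esh_ext2_apply]
    exact s56esh_hat2_inv_g s hWU hinv g h y hw hw'
  refine ⟨lvH2mk L _ ⟨s56esh_ext2 (L := L) s hW hWU hinv, hcoc, hlc⟩, ?_⟩
  rw [LvMor.H2_mk]
  congr 1
  apply Subtype.ext
  funext ⟨u, v⟩
  rw [LvMor.Z2_coe, s56esh_mor_pull2]
  exact s56esh_hat2_one s (c : U × U → N) u v

theorem s56esh_H2_injective (hU : ∃ V ∈ L.levels, V ≤ U) (hN : (s56esh_LU L U).IsSmooth N) :
    Function.Injective (s56esh_mor L U N).H2 := by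
  rw [injective_iff_map_eq_zero]
  intro x hx
  obtain ⟨C, rfl⟩ := lvH2mk_surjective x
  rw [LvMor.H2_mk, lvH2mk_eq_zero_iff] at hx
  obtain ⟨b, hb, hbC⟩ := hx
  obtain ⟨s⟩ := s56esh_exists_sec U
  -- a good level
  obtain ⟨W₁, hW₁, -, hW₁U, hinvb⟩ := s56esh_exists_level1 hU hN hb
  obtain ⟨W₂, hW₂, -, -, hinvC⟩ := C.2.2.exists_lvInv2 (s56esh_coind_smooth L U N) hW₁
  obtain ⟨W, hW, hWle, hWn⟩ := L.exists_normal_le_inf hW₁ hW₂
  have := hWn
  have hWU : W ≤ U := hWle.trans (inf_le_left.trans hW₁U)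
  have hinvb' : lvInv1 (W.subgroupOf U) b := hinvb.mono (fun w hw => (hWle hw).1)
  have hinvC' : lvInv2 W (C : G × G → s56esh_Coind L U N) :=
    hinvC.mono (hWle.trans inf_le_right)
  -- the function `F`
  set F : G → G → G → N := fun g h y => ((C : G × G → s56esh_Coind L U N) (g, h) : G → N) y
    with hF
  have hE : ∀ (u : U) (g h y : G), F g h ((u : G) * y) = u • F g h y :=
    fun u g h y => s56esh_coind_equiv _ u y
  have hZ : ∀ g h j y : G, F (g * h) j y + F g h y = F h j (y * g) + F g (h * j) y := by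
    intro g h j y
    have := congrArg (fun t : s56esh_Coind L U N => (t : G → N) y) (C.2.1 g h j)
    simpa only [AddSubgroup.coe_add, Pi.add_apply, s56esh_smul_apply] using this
  have hI : ∀ g h y : G, ∀ w ∈ W, ∀ w' ∈ W, ∀ w'' ∈ W,
      F (g * w) (h * w') (y * w'') = F g h y := by
    intro g h y w hw w' hw' w'' hw''
    show ((C : G × G → s56esh_Coind L U N) (g * w, h * w') : G → N) (y * w'') = _
    rw [hinvC'.1 g h w hw w' hw', ← s56esh_smul_apply, hinvC'.2 (g, h) w'' hw'']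
  -- `c₂ = d¹ b`
  have hc2 : s56esh_c2 F = lvD1 U N b := by
    rw [hbC]
    funext ⟨u, v⟩
    rw [LvMor.Z2_coe, s56esh_mor_pull2]
    rfl
  -- the primitive
  have hmem : ∀ g : G, (fun y : G => s56esh_hat1 s b g y - s56esh_B0 s F g y) ∈
      s56esh_coind L U N := by
    intro g
    refine ⟨fun u y => ?_, ⟨W, hW, fun y w hw => ?_⟩⟩
    · show s56esh_hat1 s b g ((u : G) * y) - s56esh_B0 s F g ((u : G) * y) =
        u • (s56esh_hat1 s b g y - s56esh_B0 s F g y)
      rw [s56esh_hat1_equiv, s56esh_B0_equiv s hE, smul_sub]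
    · show s56esh_hat1 s b g (y * w) - s56esh_B0 s F g (y * w) =
        s56esh_hat1 s b g y - s56esh_B0 s F g y
      rw [s56esh_hat1_inv_y s hWU hinvb' g y hw, s56esh_B0_inv_y s hI hWU g y hw]
  rw [lvH2mk_eq_zero_iff]
  refine ⟨fun g => ⟨_, hmem g⟩, ⟨W, hW, fun g w hw => ?_⟩, ?_⟩
  · apply s56esh_coind_ext
    intro y
    show s56esh_hat1 s b (g * w) y - s56esh_B0 s F (g * w) y =
      s56esh_hat1 s b g y - s56esh_B0 s F g y
    rw [s56esh_hat1_inv_g s hWU hinvb' g y hw, s56esh_B0_inv_g s hI hWU g y hw]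
  · funext ⟨g, h⟩
    apply s56esh_coind_ext
    intro y
    rw [lvD1_apply, AddSubgroup.coe_add, Pi.add_apply, AddSubgroup.coe_sub, Pi.sub_apply,
      s56esh_smul_apply]
    show s56esh_hat1 s b h (y * g) - s56esh_B0 s F h (y * g) -
        (s56esh_hat1 s b (g * h) y - s56esh_B0 s F (g * h) y) +
        (s56esh_hat1 s b g y - s56esh_B0 s F g y) = F g h y
    rw [s56esh_prism s hZ g h y, ← s56esh_hat2_c2 s hE, hc2, ← s56esh_hat_d1]
    abel

theorem s56esh_H2_bijective (hU : ∃ V ∈ L.levels, V ≤ U) (hN : (s56esh_LU L U).IsSmooth N) :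
    Function.Bijective (s56esh_mor L U N).H2 :=
  ⟨s56esh_H2_injective hU hN, s56esh_H2_surjective hU hN⟩

end Fermat.Agent.S56
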