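import Fermat.Agent.S56.GW.EC.Sh.Res

/-!
# [EC-SH] corestriction through the coinduced module, `V ⊴ G` of finite index

* `s56esh_iota : X →+ Coind_V^G X`, `x ↦ (g ↦ g • x)`; `s56esh_pi : Coind_V^G X →+ X`,
  `φ ↦ ∑_{q ∈ G/V} q⁻¹ • φ q`; both `G`-equivariant, `π ∘ ι = [G : V]`;
* `s56esh_mor ∘ ι = res`;
* the explicit values of `ĉ` on `V` (`s56esh_hat1_conj`, `s56esh_hat2_conj`).
-/

set_option autoImplicit false
set_option linter.unusedSectionVars false

namespace Fermat.Agent.S56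

open Fermat.Agent.S55 groupCohomology

variable {G : Type*} [Group G] (L : LevelSys G) (V : Subgroup G)
  (X : Type*) [AddCommGroup X] [DistribMulAction G X]

/-- The diagonal embedding `x ↦ (g ↦ g • x)`. -/
def s56esh_iota (hX : L.IsSmooth X) : X →+ s56esh_Coind L V X where
  toFun x := ⟨fun g => g • x, ⟨fun u y => by
      show ((u : G) * y) • x = (u : G) • (y • x)
      rw [mul_smul], by
    obtain ⟨W, hW, h⟩ := hX x
    exact ⟨W, hW, fun g w hw => by
      show (g * w) • x = g • x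
      rw [mul_smul, h w hw]⟩⟩⟩
  map_zero' := s56esh_coind_ext fun g => smul_zero g
  map_add' x y := s56esh_coind_ext fun g => smul_add g x y

variable {L V X}

theorem s56esh_iota_apply (hX : L.IsSmooth X) (x : X) (g : G) :
    ((s56esh_iota L V X hX x : s56esh_Coind L V X) : G → X) g = g • x := rfl

theorem s56esh_iota_equivariant (hX : L.IsSmooth X) (h : G) (x : X) :
    s56esh_iota L V X hX (h • x) = h • s56esh_iota L V X hX x :=
  s56esh_coind_ext fun g => by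
    rw [s56esh_smul_apply, s56esh_iota_apply, s56esh_iota_apply, mul_smul]

/-- `g ↦ g⁻¹ • φ g` is constant on the cosets of `V`. -/
theorem s56esh_psi_const [hV : V.Normal] (φ : s56esh_Coind L V X) {g₁ g₂ : G}
    (h : (g₁ : G ⧸ V) = (g₂ : G ⧸ V)) :
    g₁⁻¹ • (φ : G → X) g₁ = g₂⁻¹ • (φ : G → X) g₂ := by
  have h1 : g₁⁻¹ * g₂ ∈ V := QuotientGroup.eq.1 h
  have h2 : g₂ * g₁⁻¹ ∈ V := by
    have := hV.conj_mem _ h1 g₁
    have e : g₁ * (g₁⁻¹ * g₂) * g₁⁻¹ = g₂ * g₁⁻¹ := by group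
    rwa [e] at this
  have e2 : g₂ = ((⟨g₂ * g₁⁻¹, h2⟩ : V) : G) * g₁ := by simp
  conv_rhs => rw [e2, s56esh_coind_equiv]
  show g₁⁻¹ • (φ : G → X) g₁ = (g₂ * g₁⁻¹ * g₁)⁻¹ • ((g₂ * g₁⁻¹) • (φ : G → X) g₁)
  rw [smul_smul]
  congr 1
  group

variable (L V X)

/-- The trace map `Coind_V^G X → X`. -/
noncomputable def s56esh_pi [Fintype (G ⧸ V)] : s56esh_Coind L V X →+ X where
  toFun φ := ∑ q : G ⧸ V, (q.out)⁻¹ • (φ : G → X) q.out
  map_zero' := by simp
  map_add' φ ψ := by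
    simp only [AddSubgroup.coe_add, Pi.add_apply, smul_add, Finset.sum_add_distrib]

variable {L V X}

theorem s56esh_pi_apply [Fintype (G ⧸ V)] (φ : s56esh_Coind L V X) :
    s56esh_pi L V X φ = ∑ q : G ⧸ V, (q.out)⁻¹ • (φ : G → X) q.out := rfl

theorem s56esh_pi_equivariant [V.Normal] [Fintype (G ⧸ V)] (h : G) (φ : s56esh_Coind L V X) :
    s56esh_pi L V X (h • φ) = h • s56esh_pi L V X φ := by
  rw [s56esh_pi_apply, s56esh_pi_apply, Finset.smul_sum]
  rw [← Equiv.sum_comp (Equiv.mulRight (h : G ⧸ V))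
    (fun q : G ⧸ V => h • ((q.out)⁻¹ • (φ : G → X) q.out))]
  refine Finset.sum_congr rfl fun q _ => ?_
  rw [s56esh_smul_apply, Equiv.coe_mulRight]
  have hq : ((q.out * h : G) : G ⧸ V) = (((q * (h : G ⧸ V)).out : G) : G ⧸ V) := by
    rw [QuotientGroup.out_eq', QuotientGroup.mk_mul, QuotientGroup.out_eq']
  have := s56esh_psi_const φ hq
  rw [← this, smul_smul]
  congr 1
  group

theorem s56esh_pi_iota [Fintype (G ⧸ V)] (hX : L.IsSmooth X) (x : X) :
    s56esh_pi L V X (s56esh_iota L V X hX x) = Fintype.card (G ⧸ V) • x := by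
  rw [s56esh_pi_apply]
  simp only [s56esh_iota_apply, inv_smul_smul, Finset.sum_const, Finset.card_univ]

/-- Shapiro's map composed with the diagonal embedding is the restriction. -/
theorem s56esh_mor_comp_iota (hX : L.IsSmooth X) :
    (s56esh_mor L V X).comp
        (LvMor.ofCoeff L (s56esh_iota L V X hX) (s56esh_iota_equivariant hX)) =
      s56esh_res L V X := by
  apply s56esh_LvMor_ext
  · ext v
    rfl
  · ext x
    show ((s56esh_iota L V X hX x : s56esh_Coind L V X) : G → X) 1 = x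
    rw [s56esh_iota_apply, one_smul]

/-! ### The extended cochains on `V` -/

theorem s56esh_hat_aux [hV : V.Normal] (s : s56esh_Sec V) (v : V) (y : G) :
    (s.υ y)⁻¹ * s.υ (y * v) = s56esh_cjV V (s.r y)⁻¹ v := by
  have hmem : y * v * y⁻¹ ∈ V := hV.conj_mem v v.2 y
  have e : y * (v : G) = ((⟨y * v * y⁻¹, hmem⟩ : V) : G) * y := by simp
  apply Subtype.ext
  rw [e, s.υ_mul]
  simp only [Subgroup.coe_mul, Subgroup.coe_inv, s56esh_cjV_coe, s.υ_coe, inv_inv]
  group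

theorem s56esh_hat_aux' (s : s56esh_Sec V) (y : G) : y⁻¹ * (s.υ y : G) = (s.r y)⁻¹ := by
  rw [s.υ_coe]
  group

theorem s56esh_hat1_conj [V.Normal] (s : s56esh_Sec V) (c : V → X) (v : V) (y : G) :
    y⁻¹ • s56esh_hat1 s c (v : G) y = (s.r y)⁻¹ • c (s56esh_cjV V (s.r y)⁻¹ v) := by
  unfold s56esh_hat1
  rw [s56esh_hat_aux s v y]
  show y⁻¹ • ((s.υ y : G) • c _) = _
  rw [smul_smul, s56esh_hat_aux']

theorem s56esh_hat2_conj [V.Normal] (s : s56esh_Sec V) (c : V × V → X) (v v' : V) (y : G) :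
    y⁻¹ • s56esh_hat2 s c ((v : G), (v' : G)) y =
      (s.r y)⁻¹ • c (s56esh_cjV V (s.r y)⁻¹ v, s56esh_cjV V (s.r y)⁻¹ v') := by
  unfold s56esh_hat2
  simp only
  have e1 := s56esh_hat_aux s v y
  have e2 := s56esh_hat_aux s (v * v') y
  have e3 : (s.υ (y * v))⁻¹ * s.υ (y * v * v') = s56esh_cjV V (s.r y)⁻¹ v' := by
    have : (s.υ (y * v))⁻¹ * s.υ (y * v * v') =
        ((s.υ y)⁻¹ * s.υ (y * v))⁻¹ * ((s.υ y)⁻¹ * s.υ (y * ((v * v' : V) : G))) := by
      rw [Subgroup.coe_mul, ← mul_assoc y]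
      group
    rw [this, e1, e2, map_mul]
    group
  rw [e1, e3]
  show y⁻¹ • ((s.υ y : G) • c _) = _
  rw [smul_smul, s56esh_hat_aux']

end Fermat.Agent.S56
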