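import Fermat.Agent.S56.GW.EC.Sh.Inv

/-!
# [EC-SH] the coinduced module in the S55 level formalism, and Shapiro in degrees 0 and 1

`G` a group with a level system `L`, `U ≤ G` a subgroup containing a level, `N` a `U`-module,
smooth for the induced level system `s56esh_LU L U` on `U`.

* `s56esh_Coind L U N` : the smooth coinduced module
  `{φ : G → N | φ (u x) = u • φ x, φ level-constant}`, `(g • φ) x = φ (x g)`;
* `s56esh_mor L U N : LvMor L (Coind) (LU) N` : restriction to `U` + evaluation at `1`;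
* `s56esh_H0_bijective`, `s56esh_H1_bijective`.
-/

set_option autoImplicit false

namespace Fermat.Agent.S56

open Fermat.Agent.S55 groupCohomology

variable {G : Type*} [Group G] (L : LevelSys G) (U : Subgroup G)
  (N : Type*) [AddCommGroup N] [DistribMulAction U N]

/-- The level system induced on the subgroup `U`. -/
def s56esh_LU : LevelSys U := L.comap U.subtype

/-- The smooth coinduced module, as an additive subgroup of `G → N`. -/
def s56esh_coind : AddSubgroup (G → N) where
  carrier := {φ | (∀ (u : U) (x : G), φ ((u : G) * x) = u • φ x) ∧ L.IsLC1 φ}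
  zero_mem' := ⟨fun u x => by simp, LevelSys.isLC1_const (0 : N)⟩
  add_mem' := by
    rintro φ ψ ⟨h1, h2⟩ ⟨h1', h2'⟩
    exact ⟨fun u x => by simp only [Pi.add_apply, h1, h1', smul_add], h2.add h2'⟩
  neg_mem' := by
    rintro φ ⟨h1, h2⟩
    exact ⟨fun u x => by simp only [Pi.neg_apply, h1, smul_neg], h2.neg⟩

/-- The smooth coinduced module `Coind_U^G N`. -/
abbrev s56esh_Coind : Type _ := ↥(s56esh_coind L U N)

variable {L U N}

theorem s56esh_coind_equiv (φ : s56esh_Coind L U N) (u : U) (x : G) :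
    (φ : G → N) ((u : G) * x) = u • (φ : G → N) x := φ.2.1 u x

theorem s56esh_coind_lc (φ : s56esh_Coind L U N) : L.IsLC1 (φ : G → N) := φ.2.2

theorem s56esh_coind_ext {φ ψ : s56esh_Coind L U N} (h : ∀ x, (φ : G → N) x = (ψ : G → N) x) :
    φ = ψ := Subtype.ext (funext h)

/-- Right translation preserves the coinduced module. -/
theorem s56esh_translate_mem (g : G) (φ : s56esh_Coind L U N) :
    (fun x => (φ : G → N) (x * g)) ∈ s56esh_coind L U N := by
  refine ⟨fun u x => ?_, ?_⟩
  · show (φ : G → N) ((u : G) * x * g) = u • (φ : G → N) (x * g)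
    rw [mul_assoc, s56esh_coind_equiv]
  · obtain ⟨W, hW, hWn, h⟩ := (s56esh_coind_lc φ).exists_normal
    refine ⟨W, hW, fun x w hw => ?_⟩
    show (φ : G → N) (x * w * g) = (φ : G → N) (x * g)
    have e : x * w * g = x * g * (g⁻¹ * w * g) := by group
    rw [e]
    refine h _ _ ?_
    have := hWn.conj_mem w hw g⁻¹
    simpa using this

instance s56esh_instSMul : SMul G (s56esh_Coind L U N) :=
  ⟨fun g φ => ⟨fun x => (φ : G → N) (x * g), s56esh_translate_mem g φ⟩⟩

theorem s56esh_smul_apply (g : G) (φ : s56esh_Coind L U N) (x : G) :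
    ((g • φ : s56esh_Coind L U N) : G → N) x = (φ : G → N) (x * g) := rfl

instance s56esh_instAction : DistribMulAction G (s56esh_Coind L U N) where
  one_smul φ := s56esh_coind_ext fun x => by rw [s56esh_smul_apply, mul_one]
  mul_smul g h φ := s56esh_coind_ext fun x => by
    rw [s56esh_smul_apply, s56esh_smul_apply, s56esh_smul_apply, mul_assoc]
  smul_zero g := s56esh_coind_ext fun x => rfl
  smul_add g φ ψ := s56esh_coind_ext fun x => rfl

variable (L U N)

/-- The coinduced module is smooth. -/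
theorem s56esh_coind_smooth : L.IsSmooth (s56esh_Coind L U N) := by
  intro φ
  obtain ⟨W, hW, h⟩ := s56esh_coind_lc φ
  exact ⟨W, hW, fun w hw => s56esh_coind_ext fun x => by rw [s56esh_smul_apply, h x w hw]⟩

/-- Evaluation at `1`. -/
def s56esh_ev : s56esh_Coind L U N →+ N where
  toFun φ := (φ : G → N) 1
  map_zero' := rfl
  map_add' _ _ := rfl

/-- Shapiro's morphism: restriction to `U` and evaluation at `1`. -/
def s56esh_mor : LvMor L (s56esh_Coind L U N) (s56esh_LU L U) N where
  f := U.subtype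
  φ := s56esh_ev L U N
  equivariant := fun u φ => by
    show ((U.subtype u • φ : s56esh_Coind L U N) : G → N) 1 = u • (φ : G → N) 1
    rw [s56esh_smul_apply, one_mul, ← s56esh_coind_equiv, Subgroup.subtype_apply, mul_one]
  levels := fun V hV => ⟨V.comap U.subtype, ⟨V, hV, rfl⟩, le_rfl⟩

variable {L U N}

theorem s56esh_mor_pull1 (C : G → s56esh_Coind L U N) (u : U) :
    (s56esh_mor L U N).pull1 C u = (C (u : G) : G → N) 1 := rfl

theorem s56esh_mor_pull2 (C : G × G → s56esh_Coind L U N) (u v : U) :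
    (s56esh_mor L U N).pull2 C (u, v) = (C ((u : G), (v : G)) : G → N) 1 := rfl

/-! ### Good levels -/

/-- A level-constant 1-cochain of `U` with values in a smooth module is invariant under
`W.subgroupOf U` for a level `W` of `G` which is normal in `G` and contained in `U`. -/
theorem s56esh_exists_level1 (hU : ∃ V ∈ L.levels, V ≤ U) (hN : (s56esh_LU L U).IsSmooth N)
    {c : U → N} (hc : (s56esh_LU L U).IsLC1 c) :
    ∃ W ∈ L.levels, W.Normal ∧ W ≤ U ∧ lvInv1 (W.subgroupOf U) c := by
  obtain ⟨V₀, hV₀, hV₀U⟩ := hU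
  have hV₀' : V₀.comap U.subtype ∈ (s56esh_LU L U).levels := ⟨V₀, hV₀, rfl⟩
  obtain ⟨W', ⟨V, hV, rfl⟩, -, -, hinv⟩ := hc.exists_lvInv1 hN hV₀'
  obtain ⟨W, hW, hWle, hWn⟩ := L.exists_normal_le_inf hV hV₀
  refine ⟨W, hW, hWn, hWle.trans (inf_le_right.trans hV₀U), hinv.mono ?_⟩
  intro w hw
  exact (hWle hw).1

/-- Degree two version of `s56esh_exists_level1`. -/
theorem s56esh_exists_level2 (hU : ∃ V ∈ L.levels, V ≤ U) (hN : (s56esh_LU L U).IsSmooth N)
    {c : U × U → N} (hc : (s56esh_LU L U).IsLC2 c) :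
    ∃ W ∈ L.levels, W.Normal ∧ W ≤ U ∧ lvInv2 (W.subgroupOf U) c := by
  obtain ⟨V₀, hV₀, hV₀U⟩ := hU
  have hV₀' : V₀.comap U.subtype ∈ (s56esh_LU L U).levels := ⟨V₀, hV₀, rfl⟩
  obtain ⟨W', ⟨V, hV, rfl⟩, -, -, hinv⟩ := hc.exists_lvInv2 hN hV₀'
  obtain ⟨W, hW, hWle, hWn⟩ := L.exists_normal_le_inf hV hV₀
  refine ⟨W, hW, hWn, hWle.trans (inf_le_right.trans hV₀U), hinv.mono ?_⟩
  intro w hw
  exact (hWle hw).1

/-! ### Degree 0 -/

theorem s56esh_H0_bijective : Function.Bijective (s56esh_mor L U N).H0 := by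
  constructor
  · intro φ ψ h
    have h1 : ((φ : s56esh_Coind L U N) : G → N) 1 = ((ψ : s56esh_Coind L U N) : G → N) 1 :=
      congrArg Subtype.val h
    apply Subtype.ext
    apply s56esh_coind_ext
    intro x
    have hφ := congrArg (fun t : s56esh_Coind L U N => (t : G → N) 1) (φ.2 x)
    have hψ := congrArg (fun t : s56esh_Coind L U N => (t : G → N) 1) (ψ.2 x)
    simp only [s56esh_smul_apply, one_mul] at hφ hψ
    rw [hφ, hψ, h1]
  · intro n
    have hmem : (fun _ : G => (n : N)) ∈ s56esh_coind L U N :=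
      ⟨fun u x => (n.2 u).symm, LevelSys.isLC1_const (n : N)⟩
    refine ⟨⟨⟨fun _ => (n : N), hmem⟩, fun g => s56esh_coind_ext fun x => rfl⟩, ?_⟩
    apply Subtype.ext
    rfl

end Fermat.Agent.S56
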