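import Fermat.Agent.S56.GW.EC.Sh.Coind

/-!
# [EC-SH] Shapiro's lemma in degree one for the level cohomology

`s56esh_H1_bijective : Function.Bijective (s56esh_mor L U N).H1`, i.e.
`lvH1 L (Coind_U^G N) ≃ lvH1 (L|U) N` by restriction to `U` and evaluation at `1`,
for `U` containing a level and `N` smooth.
-/

set_option autoImplicit false

namespace Fermat.Agent.S56

open Fermat.Agent.S55 groupCohomology

variable {G : Type*} [Group G] {L : LevelSys G} {U : Subgroup G}
  {N : Type*} [AddCommGroup N] [DistribMulAction U N]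

/-- The `Coind`-valued extension of a level-constant 1-cochain of `U`. -/
def s56esh_ext1 (s : s56esh_Sec U) {W : Subgroup G} [W.Normal] (hW : W ∈ L.levels) (hWU : W ≤ U)
    {c : U → N} (hc : lvInv1 (W.subgroupOf U) c) (g : G) : s56esh_Coind L U N :=
  ⟨fun y => s56esh_hat1 s c g y,
    ⟨fun u y => s56esh_hat1_equiv s c g u y,
      ⟨W, hW, fun y _ hw => s56esh_hat1_inv_y s hWU hc g y hw⟩⟩⟩

theorem s56esh_ext1_apply (s : s56esh_Sec U) {W : Subgroup G} [W.Normal] (hW : W ∈ L.levels)
    (hWU : W ≤ U) {c : U → N} (hc : lvInv1 (W.subgroupOf U) c) (g y : G) :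
    ((s56esh_ext1 s hW hWU hc g : s56esh_Coind L U N) : G → N) y = s56esh_hat1 s c g y := rfl

theorem s56esh_H1_surjective (hU : ∃ V ∈ L.levels, V ≤ U) (hN : (s56esh_LU L U).IsSmooth N) :
    Function.Surjective (s56esh_mor L U N).H1 := by
  intro x
  obtain ⟨c, rfl⟩ := lvH1mk_surjective x
  obtain ⟨s⟩ := s56esh_exists_sec U
  obtain ⟨W, hW, hWn, hWU, hinv⟩ := s56esh_exists_level1 hU hN c.2.2
  have := hWn
  have hcoc : IsCocycle₁ (s56esh_ext1 (L := L) s hW hWU hinv) := by
    intro g h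
    apply s56esh_coind_ext
    intro y
    rw [AddSubgroup.coe_add, Pi.add_apply, s56esh_smul_apply, s56esh_ext1_apply,
      s56esh_ext1_apply, s56esh_ext1_apply]
    exact s56esh_hat1_cocycle s c.2.1 g h y
  have hlc : L.IsLC1 (s56esh_ext1 (L := L) s hW hWU hinv) := by
    refine ⟨W, hW, fun g w hw => ?_⟩
    apply s56esh_coind_ext
    intro y
    rw [s56esh_ext1_apply, s56esh_ext1_apply]
    exact s56esh_hat1_inv_g s hWU hinv g y hw
  refine ⟨lvH1mk L _ ⟨s56esh_ext1 (L := L) s hW hWU hinv, hcoc, hlc⟩, ?_⟩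
  rw [LvMor.H1_mk]
  congr 1
  apply Subtype.ext
  funext u
  rw [LvMor.Z1_coe, s56esh_mor_pull1]
  exact s56esh_hat1_one s (c : U → N) u

theorem s56esh_H1_injective : Function.Injective (s56esh_mor L U N).H1 := by
  rw [injective_iff_map_eq_zero]
  intro x hx
  obtain ⟨C, rfl⟩ := lvH1mk_surjective x
  rw [LvMor.H1_mk, lvH1mk_eq_zero_iff] at hx
  obtain ⟨n, hn⟩ := hx
  -- `hn : u • n - n = C u 1`
  have hn' : ∀ u : U, ((C : G → s56esh_Coind L U N) (u : G) : G → N) 1 = u • n - n := by
    intro u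
    have := congrFun hn u
    rw [LvMor.Z1_coe, s56esh_mor_pull1, lvD0_apply] at this
    exact this.symm
  have hcoc : ∀ g h y : G, ((C : G → s56esh_Coind L U N) (g * h) : G → N) y =
      ((C : G → s56esh_Coind L U N) h : G → N) (y * g) +
        ((C : G → s56esh_Coind L U N) g : G → N) y := by
    intro g h y
    have := congrArg (fun t : s56esh_Coind L U N => (t : G → N) y) (C.2.1 g h)
    simpa only [AddSubgroup.coe_add, Pi.add_apply, s56esh_smul_apply] using this
  -- the primitive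
  have hmem : (fun x : G => ((C : G → s56esh_Coind L U N) x : G → N) 1 + n) ∈
      s56esh_coind L U N := by
    refine ⟨fun u x => ?_, ?_⟩
    · show ((C : G → s56esh_Coind L U N) ((u : G) * x) : G → N) 1 + n =
        u • (((C : G → s56esh_Coind L U N) x : G → N) 1 + n)
      rw [hcoc, hn', one_mul, smul_add]
      have e := s56esh_coind_equiv ((C : G → s56esh_Coind L U N) x) u 1
      rw [mul_one] at e
      rw [e]
      abel
    · obtain ⟨V, hV, h⟩ := C.2.2
      exact ⟨V, hV, fun x w hw => by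
        show ((C : G → s56esh_Coind L U N) (x * w) : G → N) 1 + n = _
        rw [h x w hw]⟩
  rw [lvH1mk_eq_zero_iff]
  refine ⟨⟨_, hmem⟩, ?_⟩
  funext g
  apply s56esh_coind_ext
  intro y
  rw [lvD0_apply, AddSubgroup.coe_sub, Pi.sub_apply, s56esh_smul_apply]
  show ((C : G → s56esh_Coind L U N) (y * g) : G → N) 1 + n -
      (((C : G → s56esh_Coind L U N) y : G → N) 1 + n) = _
  rw [hcoc, one_mul]
  abel

theorem s56esh_H1_bijective (hU : ∃ V ∈ L.levels, V ≤ U) (hN : (s56esh_LU L U).IsSmooth N) :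
    Function.Bijective (s56esh_mor L U N).H1 :=
  ⟨s56esh_H1_injective, s56esh_H1_surjective hU hN⟩

end Fermat.Agent.S56
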