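import Fermat.Agent.S56.GW.EC.Sh.Sec

/-!
# [EC-SH] the extension maps `c ↦ ĉ` from cochains of `U` to `Coind`-valued cochains of `G`

For a section `s : s56esh_Sec U` and a `U`-module `N`:
`ĉ g y = υ y • c ((υ y)⁻¹ * υ (y * g))` (degree 1) and
`ĉ (g,h) y = a • c (a⁻¹ b, b⁻¹ d)`, `a = υ y`, `b = υ (y g)`, `d = υ (y g h)` (degree 2).
These are the inhomogeneous forms of `Φ ↦ Φ ∘ υ` on homogeneous cochains.
-/

set_option autoImplicit false

namespace Fermat.Agent.S56

open Fermat.Agent.S55 groupCohomology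

variable {G : Type*} [Group G] {U : Subgroup G} (s : s56esh_Sec U)
  {N : Type*} [AddCommGroup N] [DistribMulAction U N]

/-- Degree one extension. -/
def s56esh_hat1 (c : U → N) (g y : G) : N :=
  s.υ y • c ((s.υ y)⁻¹ * s.υ (y * g))

/-- Degree two extension. -/
def s56esh_hat2 (c : U × U → N) (p : G × G) (y : G) : N :=
  s.υ y • c ((s.υ y)⁻¹ * s.υ (y * p.1), (s.υ (y * p.1))⁻¹ * s.υ (y * p.1 * p.2))

theorem s56esh_hat1_equiv (c : U → N) (g : G) (u : U) (y : G) :
    s56esh_hat1 s c g ((u : G) * y) = u • s56esh_hat1 s c g y := by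
  unfold s56esh_hat1
  rw [mul_assoc, s.υ_mul, s.υ_mul, mul_smul]
  congr 2
  group

theorem s56esh_hat2_equiv (c : U × U → N) (p : G × G) (u : U) (y : G) :
    s56esh_hat2 s c p ((u : G) * y) = u • s56esh_hat2 s c p y := by
  unfold s56esh_hat2
  rw [mul_assoc, mul_assoc, mul_assoc, s.υ_mul, s.υ_mul, s.υ_mul, mul_smul, ← mul_assoc y]
  congr 3
  group

theorem s56esh_hat1_one (c : U → N) (u : U) : s56esh_hat1 s c (u : G) 1 = c u := by
  unfold s56esh_hat1
  rw [one_mul, s.υ_one, s.υ_coe_self, inv_one, one_mul, one_smul]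

theorem s56esh_hat2_one (c : U × U → N) (u v : U) :
    s56esh_hat2 s c ((u : G), (v : G)) 1 = c (u, v) := by
  unfold s56esh_hat2
  simp only [one_mul]
  rw [s.υ_one, s.υ_coe_self, ← Subgroup.coe_mul, s.υ_coe_self, inv_one, one_mul, one_smul]
  congr 2
  group

/-- The extension commutes with the differential `d¹`. -/
theorem s56esh_hat_d1 (c : U → N) (g h y : G) :
    s56esh_hat1 s c h (y * g) - s56esh_hat1 s c (g * h) y + s56esh_hat1 s c g y =
      s56esh_hat2 s (lvD1 U N c) (g, h) y := by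
  unfold s56esh_hat1 s56esh_hat2
  simp only [lvD1_apply, smul_add, smul_sub, ← mul_smul, ← mul_assoc]
  congr 3 <;> group

/-- The extension of a 1-cocycle is a 1-cocycle (pointwise form). -/
theorem s56esh_hat1_cocycle {c : U → N} (hc : IsCocycle₁ c) (g h y : G) :
    s56esh_hat1 s c (g * h) y = s56esh_hat1 s c h (y * g) + s56esh_hat1 s c g y := by
  have h0 := s56esh_hat_d1 s c g h y
  have h1 : lvD1 U N c = 0 := (isCocycle₁_iff_lvD1_eq_zero c).1 hc
  have h2 : s56esh_hat2 s (lvD1 U N c) (g, h) y = 0 := by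
    unfold s56esh_hat2
    rw [h1]
    simp
  rw [h2] at h0
  have : s56esh_hat1 s c (g * h) y =
      s56esh_hat1 s c h (y * g) + s56esh_hat1 s c g y -
        (s56esh_hat1 s c h (y * g) - s56esh_hat1 s c (g * h) y + s56esh_hat1 s c g y) := by abel
  rw [this, h0, sub_zero]

/-- The extension of a 2-cocycle is a 2-cocycle (pointwise form). -/
theorem s56esh_hat2_cocycle {c : U × U → N} (hc : IsCocycle₂ c) (g h j y : G) :
    s56esh_hat2 s c (g * h, j) y + s56esh_hat2 s c (g, h) y =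
      s56esh_hat2 s c (h, j) (y * g) + s56esh_hat2 s c (g, h * j) y := by
  unfold s56esh_hat2
  simp only
  have key := hc ((s.υ y)⁻¹ * s.υ (y * g)) ((s.υ (y * g))⁻¹ * s.υ (y * g * h))
    ((s.υ (y * g * h))⁻¹ * s.υ (y * g * h * j))
  have key' := congrArg (fun n => s.υ y • n) key
  simp only [smul_add, ← mul_smul] at key'
  have e1 : (s.υ y)⁻¹ * s.υ (y * g) * ((s.υ (y * g))⁻¹ * s.υ (y * g * h)) =
      (s.υ y)⁻¹ * s.υ (y * g * h) := by group
  have e2 : (s.υ (y * g))⁻¹ * s.υ (y * g * h) * ((s.υ (y * g * h))⁻¹ * s.υ (y * g * h * j)) =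
      (s.υ (y * g))⁻¹ * s.υ (y * g * h * j) := by group
  have e3 : s.υ y * ((s.υ y)⁻¹ * s.υ (y * g)) = s.υ (y * g) := by group
  rw [e1, e2, e3] at key'
  simp only [← mul_assoc]
  exact key'

end Fermat.Agent.S56
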