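import Fermat.Agent.S56.GW.EC.Sh.Hat

/-!
# [EC-SH] invariance of the extended cochains under a normal subgroup `W ≤ U`
-/

set_option autoImplicit false

namespace Fermat.Agent.S56

open Fermat.Agent.S55 groupCohomology

variable {G : Type*} [Group G] {U : Subgroup G} (s : s56esh_Sec U)
  {N : Type*} [AddCommGroup N] [DistribMulAction U N]
  {W : Subgroup G} [hW : W.Normal]

omit hW in
theorem s56esh_mem_sub {w : U} : w ∈ W.subgroupOf U ↔ (w : G) ∈ W := Subgroup.mem_subgroupOf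

theorem s56esh_key1 {c : U → N} (hc : lvInv1 (W.subgroupOf U) c) (a b w₁ w₂ : U)
    (h₁ : (w₁ : G) ∈ W) (h₂ : (w₂ : G) ∈ W) :
    (a * w₁) • c ((a * w₁)⁻¹ * (b * w₂)) = a • c (a⁻¹ * b) := by
  have hn : (W.subgroupOf U).Normal := inferInstance
  have hw₁ : w₁ ∈ W.subgroupOf U := s56esh_mem_sub.2 h₁
  have hw₂ : w₂ ∈ W.subgroupOf U := s56esh_mem_sub.2 h₂
  have hs : (a⁻¹ * b)⁻¹ * w₁⁻¹ * (a⁻¹ * b) * w₂ ∈ W.subgroupOf U := by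
    refine (W.subgroupOf U).mul_mem ?_ hw₂
    have := hn.conj_mem w₁⁻¹ ((W.subgroupOf U).inv_mem hw₁) (a⁻¹ * b)⁻¹
    simpa using this
  have e : (a * w₁)⁻¹ * (b * w₂) = (a⁻¹ * b) * ((a⁻¹ * b)⁻¹ * w₁⁻¹ * (a⁻¹ * b) * w₂) := by group
  rw [e, hc.1 _ _ hs, mul_smul, hc.2 _ _ hw₁]

theorem s56esh_key2 {c : U × U → N} (hc : lvInv2 (W.subgroupOf U) c) (a b d w₁ w₂ w₃ : U)
    (h₁ : (w₁ : G) ∈ W) (h₂ : (w₂ : G) ∈ W) (h₃ : (w₃ : G) ∈ W) :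
    (a * w₁) • c ((a * w₁)⁻¹ * (b * w₂), (b * w₂)⁻¹ * (d * w₃)) =
      a • c (a⁻¹ * b, b⁻¹ * d) := by
  have hn : (W.subgroupOf U).Normal := inferInstance
  have hw₁ : w₁ ∈ W.subgroupOf U := s56esh_mem_sub.2 h₁
  have hw₂ : w₂ ∈ W.subgroupOf U := s56esh_mem_sub.2 h₂
  have hw₃ : w₃ ∈ W.subgroupOf U := s56esh_mem_sub.2 h₃
  have hs : (a⁻¹ * b)⁻¹ * w₁⁻¹ * (a⁻¹ * b) * w₂ ∈ W.subgroupOf U := by
    refine (W.subgroupOf U).mul_mem ?_ hw₂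
    have := hn.conj_mem w₁⁻¹ ((W.subgroupOf U).inv_mem hw₁) (a⁻¹ * b)⁻¹
    simpa using this
  have hs' : (b⁻¹ * d)⁻¹ * w₂⁻¹ * (b⁻¹ * d) * w₃ ∈ W.subgroupOf U := by
    refine (W.subgroupOf U).mul_mem ?_ hw₃
    have := hn.conj_mem w₂⁻¹ ((W.subgroupOf U).inv_mem hw₂) (b⁻¹ * d)⁻¹
    simpa using this
  have e : (a * w₁)⁻¹ * (b * w₂) = (a⁻¹ * b) * ((a⁻¹ * b)⁻¹ * w₁⁻¹ * (a⁻¹ * b) * w₂) := by group
  have e' : (b * w₂)⁻¹ * (d * w₃) = (b⁻¹ * d) * ((b⁻¹ * d)⁻¹ * w₂⁻¹ * (b⁻¹ * d) * w₃) := by group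
  rw [e, e', hc.1 _ _ _ hs _ hs', mul_smul, hc.2 _ _ hw₁]

variable (hWU : W ≤ U)
include hWU

/-- `ĉ g` is right `W`-invariant in `y`. -/
theorem s56esh_hat1_inv_y {c : U → N} (hc : lvInv1 (W.subgroupOf U) c) (g y : G) {w : G}
    (hw : w ∈ W) : s56esh_hat1 s c g (y * w) = s56esh_hat1 s c g y := by
  obtain ⟨w₁, hw₁, e₁⟩ := s.υ_mul_W hWU y hw
  have hw' : g⁻¹ * w * g ∈ W := by
    have := hW.conj_mem w hw g⁻¹
    simpa using this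
  obtain ⟨w₂, hw₂, e₂⟩ := s.υ_mul_W hWU (y * g) hw'
  have e₃ : y * w * g = y * g * (g⁻¹ * w * g) := by group
  unfold s56esh_hat1
  rw [e₃, e₁, e₂]
  exact s56esh_key1 hc _ _ _ _ hw₁ hw₂

/-- `ĉ` is right `W`-invariant in `g`. -/
theorem s56esh_hat1_inv_g {c : U → N} (hc : lvInv1 (W.subgroupOf U) c) (g y : G) {w : G}
    (hw : w ∈ W) : s56esh_hat1 s c (g * w) y = s56esh_hat1 s c g y := by
  obtain ⟨w₂, hw₂, e₂⟩ := s.υ_mul_W hWU (y * g) hw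
  unfold s56esh_hat1
  rw [← mul_assoc, e₂]
  have := s56esh_key1 hc (s.υ y) (s.υ (y * g)) 1 w₂ W.one_mem hw₂
  simpa using this

/-- `ĉ p` is right `W`-invariant in `y` (degree 2). -/
theorem s56esh_hat2_inv_y {c : U × U → N} (hc : lvInv2 (W.subgroupOf U) c) (p : G × G) (y : G)
    {w : G} (hw : w ∈ W) : s56esh_hat2 s c p (y * w) = s56esh_hat2 s c p y := by
  obtain ⟨g, h⟩ := p
  obtain ⟨w₁, hw₁, e₁⟩ := s.υ_mul_W hWU y hw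
  have hw' : g⁻¹ * w * g ∈ W := by
    have := hW.conj_mem w hw g⁻¹
    simpa using this
  obtain ⟨w₂, hw₂, e₂⟩ := s.υ_mul_W hWU (y * g) hw'
  have hw'' : (g * h)⁻¹ * w * (g * h) ∈ W := by
    have := hW.conj_mem w hw (g * h)⁻¹
    simpa using this
  obtain ⟨w₃, hw₃, e₃⟩ := s.υ_mul_W hWU (y * g * h) hw''
  have f₂ : y * w * g = y * g * (g⁻¹ * w * g) := by group
  have f₃ : y * w * g * h = y * g * h * ((g * h)⁻¹ * w * (g * h)) := by group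
  unfold s56esh_hat2
  simp only
  rw [f₃, f₂, e₁, e₂, e₃]
  exact s56esh_key2 hc _ _ _ _ _ _ hw₁ hw₂ hw₃

/-- `ĉ` is right `W`-invariant in both group variables (degree 2). -/
theorem s56esh_hat2_inv_g {c : U × U → N} (hc : lvInv2 (W.subgroupOf U) c) (g h y : G)
    {w w' : G} (hw : w ∈ W) (hw' : w' ∈ W) :
    s56esh_hat2 s c (g * w, h * w') y = s56esh_hat2 s c (g, h) y := by
  obtain ⟨w₂, hw₂, e₂⟩ := s.υ_mul_W hWU (y * g) hw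
  have hw'' : h⁻¹ * w * h * w' ∈ W := by
    refine W.mul_mem ?_ hw'
    have := hW.conj_mem w hw h⁻¹
    simpa using this
  obtain ⟨w₃, hw₃, e₃⟩ := s.υ_mul_W hWU (y * g * h) hw''
  have f₂ : y * (g * w) = y * g * w := by group
  have f₃ : y * (g * w) * (h * w') = y * g * h * (h⁻¹ * w * h * w') := by group
  unfold s56esh_hat2
  simp only
  rw [f₃, f₂, e₂, e₃]
  have := s56esh_key2 hc (s.υ y) (s.υ (y * g)) (s.υ (y * g * h)) 1 w₂ w₃ W.one_mem hw₂ hw₃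
  simpa using this

end Fermat.Agent.S56
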