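import Fermat.Agent.S56.GW.EC.Sh.H2

/-!
# [EC-SH] restriction to a normal subgroup and the conjugation action on its level cohomology

`G` a group with level system `L`, `V ⊴ G`, `X` a `G`-module.

* `s56esh_res L V X : LvMor L X (s56esh_LU L V) X` : restriction;
* `s56esh_conjV L V X g` : the conjugation morphism `c ↦ (v ↦ g • c (g⁻¹ v g))` of `(V, X)`;
* `s56esh_conjG L X g` : the same for `G` itself; it is the identity on `lvH1`, `lvH2`
  (`s56esh_conjG_H1`, `s56esh_conjG_H2`);
* `s56esh_conjV_res_H1/H2` : restricted classes are invariant.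
-/

set_option autoImplicit false
set_option linter.unusedSectionVars false

namespace Fermat.Agent.S56

open Fermat.Agent.S55 groupCohomology

section Ext

variable {G : Type*} [Group G] {H : Type*} [Group H]
  {L : LevelSys G} {X : Type*} [AddCommGroup X] [DistribMulAction G X]
  {LH : LevelSys H} {Y : Type*} [AddCommGroup Y] [DistribMulAction H Y]

theorem s56esh_LvMor_ext {m m' : LvMor L X LH Y} (hf : m.f = m'.f) (hφ : m.φ = m'.φ) :
    m = m' := by
  cases m
  cases m'
  simp only at hf hφ
  subst hf hφ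
  rfl

end Ext

variable {G : Type*} [Group G]

/-- Conjugation `h ↦ g⁻¹ h g` on `G`. -/
def s56esh_cjG (g : G) : G →* G where
  toFun h := g⁻¹ * h * g
  map_one' := by simp
  map_mul' a b := by group

@[simp] theorem s56esh_cjG_apply (g h : G) : s56esh_cjG g h = g⁻¹ * h * g := rfl

/-- Conjugation `v ↦ g⁻¹ v g` on a normal subgroup. -/
def s56esh_cjV (V : Subgroup G) [hV : V.Normal] (g : G) : V →* V where
  toFun v := ⟨g⁻¹ * v * g, by
    have := hV.conj_mem v v.2 g⁻¹
    simpa using this⟩
  map_one' := Subtype.ext (by simp)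
  map_mul' a b := Subtype.ext (by
    simp only [Subgroup.coe_mul]
    group)

@[simp] theorem s56esh_cjV_coe (V : Subgroup G) [V.Normal] (g : G) (v : V) :
    ((s56esh_cjV V g v : V) : G) = g⁻¹ * v * g := rfl

variable (L : LevelSys G) (V : Subgroup G) (X : Type*) [AddCommGroup X] [DistribMulAction G X]

/-- Restriction to a subgroup. -/
def s56esh_res : LvMor L X (s56esh_LU L V) X where
  f := V.subtype
  φ := AddMonoidHom.id X
  equivariant := fun _ _ => rfl
  levels := fun W hW => ⟨W.comap V.subtype, ⟨W, hW, rfl⟩, le_rfl⟩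

/-- The conjugation morphism of `(G, X)`. -/
def s56esh_conjG (g : G) : LvMor L X L X where
  f := s56esh_cjG g
  φ := DistribSMul.toAddMonoidHom X g
  equivariant := fun h x => by
    show g • ((g⁻¹ * h * g) • x) = h • g • x
    rw [← mul_smul, ← mul_smul]
    congr 1
    group
  levels := fun W hW => by
    obtain ⟨W', hW', hW'W, hn⟩ := L.exists_normal W hW
    refine ⟨W', hW', fun w hw => ?_⟩
    have := hn.conj_mem w hw g⁻¹
    exact hW'W (by simpa using this)

/-- The conjugation morphism of `(V, X)`, `V` normal. -/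
def s56esh_conjV [V.Normal] (g : G) : LvMor (s56esh_LU L V) X (s56esh_LU L V) X where
  f := s56esh_cjV V g
  φ := DistribSMul.toAddMonoidHom X g
  equivariant := fun v x => by
    show g • ((g⁻¹ * (v : G) * g) • x) = (v : G) • g • x
    rw [← mul_smul, ← mul_smul]
    congr 1
    group
  levels := by
    rintro _ ⟨W, hW, rfl⟩
    obtain ⟨W', hW', hW'W, hn⟩ := L.exists_normal W hW
    refine ⟨W'.comap V.subtype, ⟨W', hW', rfl⟩, fun w hw => ?_⟩
    have := hn.conj_mem (w : G) hw g⁻¹
    exact hW'W (by simpa using this)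

variable {L V X}

theorem s56esh_conjV_comp_res [V.Normal] (g : G) :
    (s56esh_conjV L V X g).comp (s56esh_res L V X) =
      (s56esh_res L V X).comp (s56esh_conjG L X g) := by
  apply s56esh_LvMor_ext
  · ext v
    rfl
  · ext x
    rfl

/-! ### Conjugation is trivial on the cohomology of `G` -/

theorem s56esh_conjG_H1 (g : G) (z : lvH1 L X) : (s56esh_conjG L X g).H1 z = z := by
  obtain ⟨c, rfl⟩ := lvH1mk_surjective z
  rw [LvMor.H1_mk, lvH1mk_eq_iff]
  refine ⟨(c : G → X) g, ?_⟩
  funext h
  have hc := c.2.1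
  rw [lvD0_apply, Pi.sub_apply, LvMor.Z1_coe]
  show h • (c : G → X) g - (c : G → X) g = g • (c : G → X) (g⁻¹ * h * g) - (c : G → X) h
  have h1 : (c : G → X) (g⁻¹ * h * g) = g⁻¹ • (c : G → X) (h * g) + (c : G → X) g⁻¹ := by
    rw [mul_assoc, hc]
  have h2 : (c : G → X) (h * g) = h • (c : G → X) g + (c : G → X) h := hc h g
  have h3 : g • (c : G → X) g⁻¹ + (c : G → X) g = 0 := by
    have := hc g g⁻¹
    rw [mul_inv_cancel] at this
    have h0 : (c : G → X) 1 = 0 := by
      have := hc 1 1
      simpa using this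
    rw [← this, h0]
  have h4 : g • (c : G → X) g⁻¹ = -(c : G → X) g := eq_neg_of_add_eq_zero_left h3
  rw [h1, smul_add, smul_smul, mul_inv_cancel, one_smul, h2, h4]
  abel

/-- The generic prism identity (any self-map `a` of `G`). -/
theorem s56esh_prism_gen {N : Type*} [AddCommGroup N] {F : G → G → G → N}
    (hZ : ∀ g h j y : G, F (g * h) j y + F g h y = F h j (y * g) + F g (h * j) y)
    (a : G → G) (g h y : G) :
    F g h y = s56esh_Phi F (a y) (a (y * g)) (a (y * g * h)) -
      ((s56esh_Phi F (y * g) (a (y * g)) (a (y * g * h)) -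
          s56esh_Phi F (y * g) (y * g * h) (a (y * g * h))) -
        (s56esh_Phi F y (a y) (a (y * g * h)) - s56esh_Phi F y (y * g * h) (a (y * g * h))) +
        (s56esh_Phi F y (a y) (a (y * g)) - s56esh_Phi F y (y * g) (a (y * g)))) := by
  have h0 : F g h y = s56esh_Phi F y (y * g) (y * g * h) := by
    unfold s56esh_Phi
    congr 1 <;> group
  have h1 := s56esh_Phi_coc hZ y (a y) (a (y * g)) (a (y * g * h))
  have h2 := s56esh_Phi_coc hZ y (y * g) (a (y * g)) (a (y * g * h))
  have h3 := s56esh_Phi_coc hZ y (y * g) (y * g * h) (a (y * g * h))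
  rw [h0]
  exact s56esh_prism_aux _ _ _ _ _ _ _ _ _ _ h1 h2 h3

theorem s56esh_conjG_H2 (g : G) (z : lvH2 L X) : (s56esh_conjG L X g).H2 z = z := by
  obtain ⟨c, rfl⟩ := lvH2mk_surjective z
  rw [LvMor.H2_mk, lvH2mk_eq_iff]
  have hc := c.2.1
  obtain ⟨W, hW, hWn, hlc⟩ := c.2.2.exists_normal
  set F : G → G → G → X := fun a b y => y • (c : G × G → X) (a, b) with hF
  have hZ : ∀ a b j y : G, F (a * b) j y + F a b y = F b j (y * a) + F a (b * j) y := by
    intro a b j y
    have := congrArg (fun t => y • t) (hc a b j)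
    simpa only [smul_add, ← mul_smul] using this
  refine ⟨fun h => (c : G × G → X) (g, g⁻¹ * h * g) - (c : G × G → X) (h, g), ?_, ?_⟩
  · refine ⟨W, hW, fun h w hw => ?_⟩
    have hw' : g⁻¹ * w * g ∈ W := by
      have := hWn.conj_mem w hw g⁻¹
      simpa using this
    have e : g⁻¹ * (h * w) * g = g⁻¹ * h * g * (g⁻¹ * w * g) := by group
    show (c : G × G → X) (g, g⁻¹ * (h * w) * g) - (c : G × G → X) (h * w, g) = _
    rw [e]
    have a1 := hlc g (g⁻¹ * h * g) 1 W.one_mem _ hw'
    have a2 := hlc h g w hw 1 W.one_mem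
    rw [mul_one] at a1 a2
    rw [a1, a2]
  · funext ⟨h, k⟩
    have key := s56esh_prism_gen hZ (fun x => x * g) h k 1
    simp only [s56esh_Phi, hF, one_mul, inv_one, one_smul] at key
    rw [lvD1_apply, Pi.sub_apply, LvMor.Z2_coe]
    show h • ((c : G × G → X) (g, g⁻¹ * k * g) - (c : G × G → X) (k, g)) -
        ((c : G × G → X) (g, g⁻¹ * (h * k) * g) - (c : G × G → X) (h * k, g)) +
        ((c : G × G → X) (g, g⁻¹ * h * g) - (c : G × G → X) (h, g)) =
      g • (c : G × G → X) (g⁻¹ * h * g, g⁻¹ * k * g) - (c : G × G → X) (h, k)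
    have e1 : g⁻¹ * (h * g) = g⁻¹ * h * g := by group
    have e2 : (h * g)⁻¹ * (h * k * g) = g⁻¹ * k * g := by group
    have e3 : h⁻¹ * (h * g) = g := by group
    have e4 : h⁻¹ * (h * k) = k := by group
    have e5 : (h * k)⁻¹ * (h * k * g) = g := by group
    have e6 : g⁻¹ * (h * k * g) = g⁻¹ * (h * k) * g := by group
    rw [e1, e2, e3, e4, e5, e6] at key
    rw [key, smul_sub]
    abel

/-- Restricted classes are invariant under conjugation (degree 1). -/
theorem s56esh_conjV_res_H1 [V.Normal] (g : G) (z : lvH1 L X) :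
    (s56esh_conjV L V X g).H1 ((s56esh_res L V X).H1 z) = (s56esh_res L V X).H1 z := by
  rw [← LvMor.H1_comp, s56esh_conjV_comp_res, LvMor.H1_comp, s56esh_conjG_H1]

/-- Restricted classes are invariant under conjugation (degree 2). -/
theorem s56esh_conjV_res_H2 [V.Normal] (g : G) (z : lvH2 L X) :
    (s56esh_conjV L V X g).H2 ((s56esh_res L V X).H2 z) = (s56esh_res L V X).H2 z := by
  rw [← LvMor.H2_comp, s56esh_conjV_comp_res, LvMor.H2_comp, s56esh_conjG_H2]

end Fermat.Agent.S56
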