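import Fermat.Agent.S55.Level.Finite

/-!
# [EC-SH] Shapiro's lemma in the S55 level formalism: sections of `U \ G`

`s56esh_Sec U`: a set-theoretic retraction `υ : G → U` with `υ (u * x) = u * υ x`, `υ 1 = 1`,
coming from representatives `r` of the right cosets `U x` (`x = υ x * r x`).
-/

set_option autoImplicit false

namespace Fermat.Agent.S56

open Fermat.Agent.S55

/-- Section data for the right cosets of `U` in `G`. -/
structure s56esh_Sec {G : Type*} [Group G] (U : Subgroup G) where
  υ : G → U
  r : G → G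
  decomp : ∀ x : G, x = (υ x : G) * r x
  r_mul : ∀ (u : U) (x : G), r ((u : G) * x) = r x
  r_one : r 1 = 1

namespace s56esh_Sec

variable {G : Type*} [Group G] {U : Subgroup G} (s : s56esh_Sec U)

theorem υ_coe (x : G) : (s.υ x : G) = x * (s.r x)⁻¹ := by
  have := s.decomp x
  rw [eq_mul_inv_iff_mul_eq]
  exact this.symm

theorem υ_mul (u : U) (x : G) : s.υ ((u : G) * x) = u * s.υ x := by
  apply Subtype.ext
  rw [Subgroup.coe_mul, υ_coe, υ_coe, s.r_mul, mul_assoc]

theorem υ_one : s.υ 1 = 1 := by
  apply Subtype.ext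
  rw [υ_coe, s.r_one]
  simp

theorem υ_coe_self (u : U) : s.υ (u : G) = u := by
  have := s.υ_mul u 1
  rwa [mul_one, s.υ_one, mul_one] at this

/-- Compatibility with a normal subgroup `W ≤ U`. -/
theorem υ_mul_W {W : Subgroup G} [hW : W.Normal] (hWU : W ≤ U) (x : G) {w : G} (hw : w ∈ W) :
    ∃ w' : U, (w' : G) ∈ W ∧ s.υ (x * w) = s.υ x * w' := by
  have h1 : x * w * x⁻¹ ∈ W := hW.conj_mem w hw x
  have h2 : s.r (x * w) = s.r x := by
    have := s.r_mul ⟨x * w * x⁻¹, hWU h1⟩ x
    simpa using this
  have h3 : s.r x * w * (s.r x)⁻¹ ∈ W := hW.conj_mem w hw (s.r x)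
  refine ⟨⟨s.r x * w * (s.r x)⁻¹, hWU h3⟩, h3, ?_⟩
  apply Subtype.ext
  rw [Subgroup.coe_mul, υ_coe, υ_coe, h2]
  simp only
  group

end s56esh_Sec

/-- Sections exist. -/
theorem s56esh_exists_sec {G : Type*} [Group G] (U : Subgroup G) : Nonempty (s56esh_Sec U) := by
  classical
  let q : G → Quotient (QuotientGroup.rightRel U) := Quotient.mk _
  let r : G → G := fun x => if x ∈ U then 1 else Quotient.out (q x)
  have hr_mem : ∀ x : G, x * (r x)⁻¹ ∈ U := by
    intro x
    by_cases hx : x ∈ U
    · simp only [r, hx, if_true, inv_one, mul_one]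
    · simp only [r, hx, if_false]
      have h1 : QuotientGroup.rightRel U (Quotient.out (q x)) x :=
        Quotient.exact (Quotient.out_eq (q x))
      rw [QuotientGroup.rightRel_apply] at h1
      exact h1
  have hr_mul : ∀ (u : U) (x : G), r ((u : G) * x) = r x := by
    intro u x
    have hmem : (u : G) * x ∈ U ↔ x ∈ U := by
      constructor
      · intro h
        have := U.mul_mem (U.inv_mem u.2) h
        simpa using this
      · intro h
        exact U.mul_mem u.2 h
    have hq : q ((u : G) * x) = q x := by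
      apply Quotient.sound
      show QuotientGroup.rightRel U ((u : G) * x) x
      rw [QuotientGroup.rightRel_apply]
      have : x * ((u : G) * x)⁻¹ = (u : G)⁻¹ := by group
      rw [this]
      exact U.inv_mem u.2
    by_cases hx : x ∈ U
    · simp only [r, hx, hmem.2 hx, if_true]
    · have hx' : ¬ ((u : G) * x ∈ U) := fun h => hx (hmem.1 h)
      simp only [r, hx, hx', if_false, hq]
  exact ⟨{ υ := fun x => ⟨x * (r x)⁻¹, hr_mem x⟩
           r := r
           decomp := fun x => by simp
           r_mul := hr_mul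
           r_one := by simp [r, U.one_mem] }⟩

end Fermat.Agent.S56
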