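import Fermat.Agent.S56.GW.EC.Sh.Act

/-!
# [EC-SH] unit and trace for an arbitrary subgroup of finite index

`U ≤ G` any subgroup, `X` a `G`-module.  `s56esh_iota : X → Coind_U^G X` (the unit) and
`s56esh_trace : Coind_U^G X → X`, `φ ↦ ∑_{q ∈ G/U} q • φ (q⁻¹)` (the trace), both `G`-equivariant
and natural in `X`, with `trace ∘ ι = [G : U]`.
-/

set_option autoImplicit false
set_option linter.unusedSectionVars false

namespace Fermat.Agent.S56

open Fermat.Agent.S55 groupCohomology

variable {G : Type*} [Group G] (L : LevelSys G) (U : Subgroup G)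
  (X : Type*) [AddCommGroup X] [DistribMulAction G X]

variable {L U X} in
/-- `g ↦ g • φ (g⁻¹)` is constant on the left cosets of `U`. -/
theorem s56esh_tr_const (φ : s56esh_Coind L U X) {g₁ g₂ : G}
    (h : (g₁ : G ⧸ U) = (g₂ : G ⧸ U)) :
    g₁ • (φ : G → X) g₁⁻¹ = g₂ • (φ : G → X) g₂⁻¹ := by
  have h1 : g₁⁻¹ * g₂ ∈ U := QuotientGroup.eq.1 h
  have h2 : g₂⁻¹ * g₁ ∈ U := by
    have := U.inv_mem h1
    simpa using this
  have e : g₂⁻¹ = ((⟨g₂⁻¹ * g₁, h2⟩ : U) : G) * g₁⁻¹ := by simp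
  conv_rhs => rw [e, s56esh_coind_equiv]
  show g₁ • (φ : G → X) g₁⁻¹ = g₂ • ((g₂⁻¹ * g₁) • (φ : G → X) g₁⁻¹)
  rw [smul_smul]
  congr 1
  group

/-- The trace map `Coind_U^G X → X`. -/
noncomputable def s56esh_trace [Fintype (G ⧸ U)] : s56esh_Coind L U X →+ X where
  toFun φ := ∑ q : G ⧸ U, q.out • (φ : G → X) (q.out)⁻¹
  map_zero' := by simp
  map_add' φ ψ := by
    simp only [AddSubgroup.coe_add, Pi.add_apply, smul_add, Finset.sum_add_distrib]

variable {L U X}

theorem s56esh_trace_apply [Fintype (G ⧸ U)] (φ : s56esh_Coind L U X) :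
    s56esh_trace L U X φ = ∑ q : G ⧸ U, q.out • (φ : G → X) (q.out)⁻¹ := rfl

theorem s56esh_trace_equivariant [Fintype (G ⧸ U)] (h : G) (φ : s56esh_Coind L U X) :
    s56esh_trace L U X (h • φ) = h • s56esh_trace L U X φ := by
  rw [s56esh_trace_apply, s56esh_trace_apply, Finset.smul_sum]
  rw [← Equiv.sum_comp (MulAction.toPerm (h⁻¹ : G) : Equiv.Perm (G ⧸ U))
    (fun q : G ⧸ U => h • (q.out • (φ : G → X) (q.out)⁻¹))]
  refine Finset.sum_congr rfl fun q _ => ?_
  rw [s56esh_smul_apply, MulAction.toPerm_apply]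
  have hq : ((h⁻¹ * q.out : G) : G ⧸ U) = ((((h⁻¹ : G) • q : G ⧸ U).out : G) : G ⧸ U) := by
    rw [QuotientGroup.out_eq']
    conv_rhs => rw [← QuotientGroup.out_eq' q]
    rfl
  have := s56esh_tr_const φ hq
  rw [← this, smul_smul]
  have e1 : (h⁻¹ * q.out)⁻¹ = (q.out)⁻¹ * h := by group
  have e2 : h * (h⁻¹ * q.out) = q.out := by group
  rw [e1, e2]

theorem s56esh_trace_iota [Fintype (G ⧸ U)] (hX : L.IsSmooth X) (x : X) :
    s56esh_trace L U X (s56esh_iota L U X hX x) = Fintype.card (G ⧸ U) • x := by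
  rw [s56esh_trace_apply]
  simp only [s56esh_iota_apply, smul_inv_smul, Finset.sum_const, Finset.card_univ]

/-! ### Naturality in the coefficient module -/

section Natural

variable {X' : Type*} [AddCommGroup X'] [DistribMulAction G X'] (f : X →+ X')
  (hf : ∀ (g : G) (x : X), f (g • x) = g • f x)
include hf

theorem s56esh_coindMap_mem (φ : s56esh_Coind L U X) :
    (fun g => f ((φ : G → X) g)) ∈ s56esh_coind L U X' := by
  refine ⟨fun u g => ?_, ?_⟩
  · show f ((φ : G → X) ((u : G) * g)) = (u : G) • f ((φ : G → X) g)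
    rw [s56esh_coind_equiv, ← hf]
    rfl
  · obtain ⟨W, hW, hlc⟩ := s56esh_coind_lc φ
    exact ⟨W, hW, fun g w hw => by
      show f ((φ : G → X) (g * w)) = f ((φ : G → X) g)
      rw [hlc g w hw]⟩

/-- Functoriality of `Coind_U^G` in the coefficient module. -/
def s56esh_coindMap : s56esh_Coind L U X →+ s56esh_Coind L U X' where
  toFun φ := ⟨fun g => f ((φ : G → X) g), s56esh_coindMap_mem f hf φ⟩
  map_zero' := s56esh_coind_ext fun _ => map_zero f
  map_add' _ _ := s56esh_coind_ext fun _ => map_add f _ _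

theorem s56esh_coindMap_apply (φ : s56esh_Coind L U X) (g : G) :
    ((s56esh_coindMap (L := L) (U := U) f hf φ : s56esh_Coind L U X') : G → X') g =
      f ((φ : G → X) g) := rfl

theorem s56esh_coindMap_equivariant (h : G) (φ : s56esh_Coind L U X) :
    s56esh_coindMap (L := L) (U := U) f hf (h • φ) = h • s56esh_coindMap f hf φ :=
  s56esh_coind_ext fun _ => rfl

theorem s56esh_coindMap_iota (hX : L.IsSmooth X) (hX' : L.IsSmooth X') (x : X) :
    s56esh_coindMap f hf (s56esh_iota L U X hX x) = s56esh_iota L U X' hX' (f x) :=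
  s56esh_coind_ext fun g => by
    rw [s56esh_coindMap_apply, s56esh_iota_apply, s56esh_iota_apply, hf]

theorem s56esh_trace_coindMap [Fintype (G ⧸ U)] (φ : s56esh_Coind L U X) :
    s56esh_trace L U X' (s56esh_coindMap f hf φ) = f (s56esh_trace L U X φ) := by
  rw [s56esh_trace_apply, s56esh_trace_apply, map_sum]
  refine Finset.sum_congr rfl fun q _ => ?_
  rw [s56esh_coindMap_apply, hf]

end Natural

end Fermat.Agent.S56
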